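/-
S15 design cell (helper29): the real place, brick (R4') — the abstract half-count.

`H` a finite free `ℤ`-module, `c` an involution, `e` an endomorphism commuting with `c`,
idempotent modulo `4`, with `trace (e ^ k * c) = 0` for all `k`.  Then
`#{u ∈ (c - 1) e (H/4) : 2 u = 0} ≤ 2 ^ d` where `#e(H/2) = 4 ^ d`.
Mathlib only.
-/
import Mathlib

set_option autoImplicit false

open scoped TensorProduct
open Module

namespace Fermat.Agent.S15P.Real.HalfCount29

noncomputable section

/-! ### Elements of `ZMod k ⊗ H` -/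

theorem exists_one_tmul {k : ℕ} {H : Type*} [AddCommGroup H] (u : ZMod k ⊗[ℤ] H) :
    ∃ x : H, u = (1 : ZMod k) ⊗ₜ[ℤ] x := by
  induction u using TensorProduct.induction_on with
  | zero => exact ⟨0, by simp⟩
  | tmul r x =>
    refine ⟨(r.cast : ℤ) • x, ?_⟩
    rw [TensorProduct.tmul_smul, TensorProduct.smul_tmul', zsmul_one, ZMod.intCast_zmod_cast]
  | add u v hu hv =>
    obtain ⟨x, rfl⟩ := hu
    obtain ⟨y, rfl⟩ := hv
    exact ⟨x + y, (TensorProduct.tmul_add _ _ _).symm⟩

theorem one_tmul_nsmul_self {k : ℕ} {H : Type*} [AddCommGroup H] (y : H) :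
    (1 : ZMod k) ⊗ₜ[ℤ] ((k : ℤ) • y) = 0 := by
  rw [TensorProduct.tmul_smul, TensorProduct.smul_tmul', zsmul_one]
  simp

theorem exists_eq_smul_of_one_tmul_eq_zero {k : ℕ} {H : Type*} [AddCommGroup H]
    [Module.Free ℤ H] (x : H) (hx : (1 : ZMod k) ⊗ₜ[ℤ] x = 0) : ∃ y : H, x = (k : ℤ) • y := by
  classical
  let b := Module.Free.chooseBasis ℤ H
  have h1 : ∀ i, (k : ℤ) ∣ b.repr x i := by
    intro i
    have h := Basis.baseChange_repr_tmul (ZMod k) b (1 : ZMod k) x i
    rw [hx, map_zero, Finsupp.zero_apply, zsmul_one] at h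
    exact (ZMod.intCast_zmod_eq_zero_iff_dvd _ _).mp h.symm
  refine ⟨b.repr.symm ((b.repr x).mapRange (fun a => a / (k : ℤ)) (by simp)), ?_⟩
  apply b.repr.injective
  ext i
  rw [map_smul, LinearEquiv.apply_symm_apply, Finsupp.smul_apply, Finsupp.mapRange_apply,
    smul_eq_mul, Int.mul_ediv_cancel' (h1 i)]

/-- `g ⊗ ZMod k = 0` iff `g` takes values in `k H`. -/
theorem baseChange_eq_zero_iff {k : ℕ} {H H' : Type*} [AddCommGroup H] [AddCommGroup H']
    [Module.Free ℤ H'] (g : H →ₗ[ℤ] H') :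
    g.baseChange (ZMod k) = 0 ↔ ∀ x : H, ∃ y : H', g x = (k : ℤ) • y := by
  constructor
  · intro h x
    apply exists_eq_smul_of_one_tmul_eq_zero
    have := congrArg (fun F : ZMod k ⊗[ℤ] H →ₗ[ZMod k] ZMod k ⊗[ℤ] H' => F ((1 : ZMod k) ⊗ₜ[ℤ] x)) h
    simpa using this
  · intro h
    refine LinearMap.ext fun u => ?_
    obtain ⟨x, rfl⟩ := exists_one_tmul u
    obtain ⟨y, hy⟩ := h x
    rw [LinearMap.baseChange_tmul, hy, one_tmul_nsmul_self, LinearMap.zero_apply]

theorem baseChange_sub_eq_zero {k : ℕ} {H H' : Type*} [AddCommGroup H] [AddCommGroup H']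
    (g g' : H →ₗ[ℤ] H') :
    (g - g').baseChange (ZMod k) = 0 ↔ g.baseChange (ZMod k) = g'.baseChange (ZMod k) := by
  rw [LinearMap.baseChange_sub]
  exact sub_eq_zero (G := ZMod k ⊗[ℤ] H →ₗ[ZMod k] ZMod k ⊗[ℤ] H')

/-! ### `ZMod (r ^ m)` is a local ring -/

theorem isLocalRing_zmod_prime_pow (r : ℕ) [Fact r.Prime] (m : ℕ) (hm : 0 < m) :
    IsLocalRing (ZMod (r ^ m)) := by
  have hr := (Fact.out : r.Prime)
  have : Fact (1 < r ^ m) := ⟨Nat.one_lt_pow hm.ne' hr.one_lt⟩
  have : NeZero (r ^ m) := ⟨(pow_pos hr.pos m).ne'⟩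
  refine IsLocalRing.of_isUnit_or_isUnit_one_sub_self fun a => ?_
  have hlt : a.val < r ^ m := ZMod.val_lt a
  by_cases h : r ∣ a.val
  · right
    have e : (1 - a) = ((r ^ m + 1 - a.val : ℕ) : ZMod (r ^ m)) := by
      rw [Nat.cast_sub (by omega), Nat.cast_add, ZMod.natCast_self, zero_add, Nat.cast_one,
        ZMod.natCast_zmod_val]
    rw [e, ZMod.isUnit_iff_coprime]
    apply Nat.Coprime.pow_right
    rw [Nat.coprime_comm, hr.coprime_iff_not_dvd]
    intro h2
    have h3 : r ∣ r ^ m := dvd_pow_self r hm.ne'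
    have h4 : r ∣ (r ^ m + 1 - a.val) + a.val := dvd_add h2 h
    rw [Nat.sub_add_cancel (by omega)] at h4
    have h5 : r ∣ 1 := (Nat.dvd_add_right h3).mp h4
    exact hr.one_lt.ne' (Nat.dvd_one.mp h5)
  · left
    rw [← ZMod.natCast_zmod_val a, ZMod.isUnit_iff_coprime]
    exact Nat.Coprime.pow_right _ ((Nat.coprime_comm).mp (hr.coprime_iff_not_dvd.mpr h))

/-! ### Reduction `ZMod (r ^ m) ⊗ L → ZMod r ⊗ L` -/

/-- the ring map `ZMod (r ^ m) → ZMod r` -/
def castP (r m : ℕ) (hm : 0 < m) : ZMod (r ^ m) →+* ZMod r :=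
  ZMod.castHom (dvd_pow_self r hm.ne') (ZMod r)

/-- reduction modulo `r` -/
def red (r m : ℕ) (hm : 0 < m) (L : Type*) [AddCommGroup L] :
    ZMod (r ^ m) ⊗[ℤ] L →ₗ[ℤ] ZMod r ⊗[ℤ] L :=
  LinearMap.rTensor L (castP r m hm).toAddMonoidHom.toIntLinearMap

theorem red_tmul (r m : ℕ) (hm : 0 < m) {L : Type*} [AddCommGroup L] (a : ZMod (r ^ m)) (x : L) :
    red r m hm L (a ⊗ₜ[ℤ] x) = castP r m hm a ⊗ₜ[ℤ] x := rfl

theorem red_smul (r m : ℕ) (hm : 0 < m) {L : Type*} [AddCommGroup L] (a : ZMod (r ^ m))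
    (u : ZMod (r ^ m) ⊗[ℤ] L) : red r m hm L (a • u) = castP r m hm a • red r m hm L u := by
  induction u using TensorProduct.induction_on with
  | zero => simp
  | tmul b x =>
    rw [TensorProduct.smul_tmul', red_tmul, red_tmul, TensorProduct.smul_tmul', smul_eq_mul,
      smul_eq_mul, map_mul]
  | add u v hu hv => rw [smul_add, map_add, hu, hv, map_add, smul_add]

theorem red_baseChange (r m : ℕ) (hm : 0 < m) {L L' : Type*} [AddCommGroup L] [AddCommGroup L']
    (g : L →ₗ[ℤ] L') (u : ZMod (r ^ m) ⊗[ℤ] L) :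
    red r m hm L' (g.baseChange (ZMod (r ^ m)) u) = g.baseChange (ZMod r) (red r m hm L u) := by
  induction u using TensorProduct.induction_on with
  | zero => simp
  | tmul a x => rw [LinearMap.baseChange_tmul, red_tmul, red_tmul, LinearMap.baseChange_tmul]
  | add u v hu hv => rw [map_add, map_add, hu, hv, map_add, map_add]

theorem red_surjective (r m : ℕ) (hm : 0 < m) {L : Type*} [AddCommGroup L] :
    Function.Surjective (red r m hm L) := by
  intro v
  obtain ⟨x, rfl⟩ := exists_one_tmul v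
  exact ⟨(1 : ZMod (r ^ m)) ⊗ₜ[ℤ] x, by rw [red_tmul, map_one]⟩

/-- a free submodule upstairs bounds the dimension of anything inside its reduction -/
theorem finrank_le_of_red (r : ℕ) [Fact r.Prime] (m : ℕ) (hm : 0 < m) {L : Type*} [AddCommGroup L]
    [Module.Finite ℤ L]
    (S : Submodule (ZMod (r ^ m)) (ZMod (r ^ m) ⊗[ℤ] L)) [Module.Free (ZMod (r ^ m)) S]
    [Module.Finite (ZMod (r ^ m)) S]
    (T : Submodule (ZMod r) (ZMod r ⊗[ℤ] L)) (hT : ∀ v ∈ T, ∃ x ∈ S, red r m hm L x = v) :
    finrank (ZMod r) T ≤ finrank (ZMod (r ^ m)) S := by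
  have hr := (Fact.out : r.Prime)
  have : Fact (1 < r ^ m) := ⟨Nat.one_lt_pow hm.ne' hr.one_lt⟩
  let b := Module.finBasis (ZMod (r ^ m)) S
  have hsub : T ≤ Submodule.span (ZMod r)
      (Set.range fun i => red r m hm L (b i : ZMod (r ^ m) ⊗[ℤ] L)) := by
    intro v hv
    obtain ⟨x, hx, rfl⟩ := hT v hv
    have h1 := b.sum_repr ⟨x, hx⟩
    have hx' : x = ∑ i, (b.repr ⟨x, hx⟩ i) • (b i : ZMod (r ^ m) ⊗[ℤ] L) := by
      have h2 := congrArg (Subtype.val) h1
      simp only [Submodule.coe_sum, Submodule.coe_smul] at h2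
      exact h2.symm
    rw [hx', map_sum]
    refine Submodule.sum_mem _ fun i _ => ?_
    rw [red_smul]
    exact Submodule.smul_mem _ _ (Submodule.subset_span ⟨i, rfl⟩)
  calc finrank (ZMod r) T
      ≤ finrank (ZMod r) (Submodule.span (ZMod r)
          (Set.range fun i => red r m hm L (b i : ZMod (r ^ m) ⊗[ℤ] L))) :=
        Submodule.finrank_mono hsub
    _ ≤ Fintype.card (Fin (finrank (ZMod (r ^ m)) S)) := finrank_range_le_card _
    _ = finrank (ZMod (r ^ m)) S := Fintype.card_fin _

/-! ### Idempotents on free modules over a local ring -/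

theorem free_range_of_idempotent {R M : Type*} [CommRing R] [IsLocalRing R] [AddCommGroup M]
    [Module R M] [Module.Free R M] [Module.Finite R M] (F : Module.End R M) (hF : F * F = F) :
    Module.Free R (LinearMap.range F) := by
  have hFx : ∀ x, F (F x) = F x := fun x => by
    have := congrArg (fun G : Module.End R M => G x) hF
    simpa using this
  have : Module.Projective R (LinearMap.range F) :=
    Module.Projective.of_split (LinearMap.range F).subtype F.rangeRestrict (by
      ext ⟨x, y, rfl⟩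
      simp [hFx])
  exact Module.free_of_flat_of_isLocalRing

theorem free_ker_of_idempotent {R M : Type*} [CommRing R] [IsLocalRing R] [AddCommGroup M]
    [Module R M] [Module.Free R M] [Module.Finite R M] [IsNoetherian R M] (F : Module.End R M)
    (hF : F * F = F) : Module.Free R (LinearMap.ker F) := by
  have hFx : ∀ x, F (F x) = F x := fun x => by
    have := congrArg (fun G : Module.End R M => G x) hF
    simpa using this
  have : Module.Projective R (LinearMap.ker F) :=
    Module.Projective.of_split (LinearMap.ker F).subtype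
      ((1 - F).codRestrict (LinearMap.ker F) (fun x => by
        rw [LinearMap.mem_ker, LinearMap.sub_apply, Module.End.one_apply, map_sub, hFx, sub_self]))
      (by
        ext ⟨x, hx⟩
        rw [LinearMap.mem_ker] at hx
        simp [hx])
  exact Module.free_of_flat_of_isLocalRing

/-- The rank of the range of an idempotent modulo `r ^ m` is the `𝔽_r`-rank of its reduction,
and the trace is congruent to it. -/
theorem finrank_range_and_trace (r : ℕ) [Fact r.Prime] (m : ℕ) (hm : 0 < m) {L : Type*}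
    [AddCommGroup L] [Module.Free ℤ L] [Module.Finite ℤ L] (f : Module.End ℤ L)
    (hF : f.baseChange (ZMod (r ^ m)) * f.baseChange (ZMod (r ^ m)) = f.baseChange (ZMod (r ^ m))) :
    ∃ _ : Module.Free (ZMod (r ^ m)) (LinearMap.range (f.baseChange (ZMod (r ^ m)))),
      finrank (ZMod (r ^ m)) (LinearMap.range (f.baseChange (ZMod (r ^ m))))
        = finrank (ZMod r) (LinearMap.range (f.baseChange (ZMod r))) ∧
      ((LinearMap.trace ℤ L f : ℤ) : ZMod (r ^ m))
        = (finrank (ZMod r) (LinearMap.range (f.baseChange (ZMod r))) : ZMod (r ^ m)) := by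
  have hr := (Fact.out : r.Prime)
  have : Fact (1 < r ^ m) := ⟨Nat.one_lt_pow hm.ne' hr.one_lt⟩
  have : NeZero (r ^ m) := ⟨(pow_pos hr.pos m).ne'⟩
  haveI := isLocalRing_zmod_prime_pow r m hm
  set F := f.baseChange (ZMod (r ^ m)) with hFdef
  have hFx : ∀ x, F (F x) = F x := fun x => by
    have := congrArg (fun G : Module.End (ZMod (r ^ m)) (ZMod (r ^ m) ⊗[ℤ] L) => G x) hF
    simpa using this
  haveI := free_range_of_idempotent F hF
  haveI := free_ker_of_idempotent F hF
  have hproj : LinearMap.IsProj (LinearMap.range F) F :=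
    ⟨fun x => ⟨x, rfl⟩, fun x hx => by obtain ⟨y, rfl⟩ := hx; exact hFx y⟩
  have htr := hproj.trace
  have hbc := LinearMap.trace_baseChange f (ZMod (r ^ m))
  -- the ranks
  have hn : finrank (ZMod (r ^ m)) (LinearMap.range F) + finrank (ZMod (r ^ m)) (LinearMap.ker F)
      = finrank ℤ L := by
    have e := (Submodule.prodEquivOfIsCompl _ _ hproj.isCompl).finrank_eq
    rw [Module.finrank_prod, Module.finrank_baseChange] at e
    exact e
  have h1 : finrank (ZMod r) (LinearMap.range (f.baseChange (ZMod r)))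
      ≤ finrank (ZMod (r ^ m)) (LinearMap.range F) := by
    apply finrank_le_of_red r m hm
    rintro v ⟨w, rfl⟩
    obtain ⟨x, rfl⟩ := red_surjective r m hm w
    exact ⟨F x, ⟨x, rfl⟩, red_baseChange r m hm f x⟩
  have h2 : finrank (ZMod r) (LinearMap.range ((1 - f).baseChange (ZMod r)))
      ≤ finrank (ZMod (r ^ m)) (LinearMap.ker F) := by
    apply finrank_le_of_red r m hm
    rintro v ⟨w, rfl⟩
    obtain ⟨x, rfl⟩ := red_surjective r m hm w
    refine ⟨(1 - f).baseChange (ZMod (r ^ m)) x, ?_, red_baseChange r m hm (1 - f) x⟩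
    rw [LinearMap.mem_ker, LinearMap.baseChange_sub, LinearMap.baseChange_one,
      LinearMap.sub_apply, Module.End.one_apply, map_sub, hFx, sub_self]
  have h3 : finrank ℤ L ≤ finrank (ZMod r) (LinearMap.range (f.baseChange (ZMod r)))
      + finrank (ZMod r) (LinearMap.range ((1 - f).baseChange (ZMod r))) := by
    have htop : LinearMap.range (f.baseChange (ZMod r))
        ⊔ LinearMap.range ((1 - f).baseChange (ZMod r)) = ⊤ := by
      rw [eq_top_iff]
      intro x _
      have : x = f.baseChange (ZMod r) x + (1 - f).baseChange (ZMod r) x := by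
        rw [LinearMap.baseChange_sub, LinearMap.baseChange_one, LinearMap.sub_apply,
          Module.End.one_apply]
        abel
      rw [this]
      exact Submodule.add_mem_sup ⟨x, rfl⟩ ⟨x, rfl⟩
    have h := Submodule.finrank_add_le_finrank_add_finrank
      (LinearMap.range (f.baseChange (ZMod r))) (LinearMap.range ((1 - f).baseChange (ZMod r)))
    rw [htop, finrank_top, Module.finrank_baseChange] at h
    exact h
  have hρ : finrank (ZMod (r ^ m)) (LinearMap.range F)
      = finrank (ZMod r) (LinearMap.range (f.baseChange (ZMod r))) := by omega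
  refine ⟨inferInstance, hρ, ?_⟩
  rw [← hρ, ← htr, hbc]
  rfl

theorem lift_idem_aux {R : Type*} [Ring R] (x : R) {N : ℕ} (hN : 0 < N) (h : x * x = x) :
    1 - (1 - x ^ N) ^ N = x := by
  obtain ⟨N', rfl⟩ := Nat.exists_eq_succ_of_ne_zero hN.ne'
  have hi : IsIdempotentElem x := h
  rw [hi.pow_succ_eq, hi.one_sub.pow_succ_eq, sub_sub_cancel]

/-! ### The minus part of an involution -/

section Minus

variable {H : Type*} [AddCommGroup H]

/-- `H⁻ = ker (c + 1)` -/
def minus (c : Module.End ℤ H) : Submodule ℤ H := LinearMap.ker (c + 1)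

theorem mem_minus {c : Module.End ℤ H} {x : H} : x ∈ minus c ↔ c x = -x := by
  rw [minus, LinearMap.mem_ker, LinearMap.add_apply, Module.End.one_apply,
    add_eq_zero_iff_eq_neg]

theorem minus_saturated [Module.Free ℤ H] (c : Module.End ℤ H) {k : ℤ} (hk : k ≠ 0) {y : H}
    (h : k • y ∈ minus c) : y ∈ minus c := by
  rw [mem_minus] at h ⊢
  have h1 : k • (c y + y) = 0 := by rw [smul_add, ← map_smul, h, neg_add_cancel]
  have h2 := (smul_eq_zero.mp h1).resolve_left hk
  exact eq_neg_of_add_eq_zero_left h2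

theorem map_mem_minus {c g : Module.End ℤ H} (hcg : Commute c g) {x : H} (hx : x ∈ minus c) :
    g x ∈ minus c := by
  rw [mem_minus] at hx ⊢
  have h := congrArg (fun G : Module.End ℤ H => G x) hcg.eq
  simp only [Module.End.mul_apply] at h
  rw [h, hx, map_neg]

theorem commute_apply {c g : Module.End ℤ H} (hcg : Commute c g) (x : H) : c (g x) = g (c x) := by
  have h := congrArg (fun G : Module.End ℤ H => G x) hcg.eq
  simpa only [Module.End.mul_apply] using h

theorem sq_apply {c : Module.End ℤ H} (hc : c * c = 1) (x : H) : c (c x) = x := by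
  have h := congrArg (fun G : Module.End ℤ H => G x) hc
  simpa only [Module.End.mul_apply, Module.End.one_apply] using h

theorem sub_mem_minus {c : Module.End ℤ H} (hc : c * c = 1) (x : H) : c x - x ∈ minus c := by
  rw [mem_minus, map_sub, sq_apply hc]
  abel

/-- restriction to `H⁻` of an endomorphism commuting with `c` -/
def restr (c g : Module.End ℤ H) (hcg : Commute c g) : Module.End ℤ (minus c) :=
  g.restrict (fun _ hx => map_mem_minus hcg hx)

theorem coe_restr_apply (c g : Module.End ℤ H) (hcg : Commute c g) (x : minus c) :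
    ((restr c g hcg x : minus c) : H) = g (x : H) := rfl

theorem restr_baseChange_eq_zero [Module.Free ℤ H] [Module.Finite ℤ H] {c g : Module.End ℤ H} (hcg : Commute c g) {k : ℕ} (hk : k ≠ 0)
    (h : g.baseChange (ZMod k) = 0) : (restr c g hcg).baseChange (ZMod k) = 0 := by
  rw [baseChange_eq_zero_iff] at h ⊢
  intro x
  obtain ⟨y, hy⟩ := h (x : H)
  have hy' : y ∈ minus c := minus_saturated c (k := (k : ℤ)) (by exact_mod_cast hk)
    (by rw [← hy]; exact map_mem_minus hcg x.2)
  exact ⟨⟨y, hy'⟩, Subtype.ext hy⟩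

/-- `ZMod k ⊗ H⁻ → ZMod k ⊗ H` is injective (`H⁻` is saturated). -/
theorem subtype_baseChange_injective [Module.Free ℤ H] (c : Module.End ℤ H) {k : ℕ} (hk : k ≠ 0) :
    Function.Injective ((minus c).subtype.baseChange (ZMod k)) := by
  rw [injective_iff_map_eq_zero]
  intro u hu
  obtain ⟨y, rfl⟩ := exists_one_tmul u
  rw [LinearMap.baseChange_tmul] at hu
  obtain ⟨y', hy'⟩ := exists_eq_smul_of_one_tmul_eq_zero _ hu
  have hy'' : y' ∈ minus c := minus_saturated c (k := (k : ℤ)) (by exact_mod_cast hk)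
    (by rw [← hy']; exact y.2)
  have : y = (k : ℤ) • (⟨y', hy''⟩ : minus c) := Subtype.ext hy'
  rw [this, one_tmul_nsmul_self]

/-- `tr f = 2 tr (f | H⁻)` when `tr (f c) = 0`. -/
theorem trace_eq_two_mul_trace_restr [Module.Free ℤ H] [Module.Finite ℤ H]
    {c f : Module.End ℤ H} (hc : c * c = 1)
    (hcf : Commute c f) (htr : LinearMap.trace ℤ H (f * c) = 0) :
    LinearMap.trace ℤ H f = 2 * LinearMap.trace ℤ (minus c) (restr c f hcf) := by
  let p : H →ₗ[ℤ] minus c := (1 - c).codRestrict (minus c) (fun x => by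
    have h := sub_mem_minus hc x
    rw [LinearMap.sub_apply, Module.End.one_apply, ← neg_sub]
    exact (minus c).neg_mem h)
  let g : minus c →ₗ[ℤ] H := f ∘ₗ (minus c).subtype
  have h1 : g ∘ₗ p = f * (1 - c) := by
    ext x
    rfl
  have h2 : p ∘ₗ g = (2 : ℤ) • restr c f hcf := by
    ext x
    have hx : c (x : H) = -(x : H) := mem_minus.mp x.2
    change (1 - c) (f (x : H)) = ((2 : ℤ) • restr c f hcf x : minus c)
    rw [Submodule.coe_smul, coe_restr_apply, LinearMap.sub_apply, Module.End.one_apply,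
      commute_apply hcf, hx, map_neg, two_smul]
    abel
  have h3 := LinearMap.trace_comp_comm' p g
  rw [h1, h2, map_smul, mul_sub, mul_one, map_sub, htr, sub_zero] at h3
  rw [h3, smul_eq_mul]

/-- `tr (P(e) c) = 0` for every polynomial `P`. -/
theorem trace_aeval_mul {c e : Module.End ℤ H}
    (htr : ∀ k : ℕ, LinearMap.trace ℤ H (e ^ k * c) = 0) (P : Polynomial ℤ) :
    LinearMap.trace ℤ H (Polynomial.aeval e P * c) = 0 := by
  rw [Polynomial.aeval_eq_sum_range, Finset.sum_mul, map_sum]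
  refine Finset.sum_eq_zero fun i _ => ?_
  rw [smul_mul_assoc, map_smul, htr, smul_zero]

/-- the idempotent lift `1 - (1 - e ^ N) ^ N` -/
def lift (e : Module.End ℤ H) (N : ℕ) : Module.End ℤ H := 1 - (1 - e ^ N) ^ N

theorem lift_eq_aeval (e : Module.End ℤ H) (N : ℕ) :
    lift e N = Polynomial.aeval e (1 - (1 - Polynomial.X ^ N) ^ N : Polynomial ℤ) := by
  simp [lift]

theorem commute_lift {c e : Module.End ℤ H} (hce : Commute c e) (N : ℕ) :
    Commute c (lift e N) :=
  (Commute.one_right c).sub_right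
    (((Commute.one_right c).sub_right (hce.pow_right N)).pow_right N)

theorem lift_baseChange (e : Module.End ℤ H) (k N : ℕ) :
    (lift e N).baseChange (ZMod k) = 1 - (1 - (e.baseChange (ZMod k)) ^ N) ^ N := by
  simp only [lift, LinearMap.baseChange_sub, LinearMap.baseChange_one, LinearMap.baseChange_pow]

theorem lift_baseChange_idem (e : Module.End ℤ H) {k : ℕ} (N : ℕ)
    (h : ((e - e ^ 2) ^ N).baseChange (ZMod k) = 0) :
    (lift e N).baseChange (ZMod k) * (lift e N).baseChange (ZMod k)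
      = (lift e N).baseChange (ZMod k) := by
  rw [lift_baseChange]
  have hx : ((e.baseChange (ZMod k) : Module.End (ZMod k) (ZMod k ⊗[ℤ] H))
      - (e.baseChange (ZMod k) : Module.End (ZMod k) (ZMod k ⊗[ℤ] H)) ^ 2) ^ N = 0 := by
    rw [← LinearMap.baseChange_pow, ← LinearMap.baseChange_sub, ← LinearMap.baseChange_pow]
    exact h
  exact isIdempotentElem_one_sub_one_sub_pow_pow
    (R := Module.End (ZMod k) (ZMod k ⊗[ℤ] H)) (e.baseChange (ZMod k)) N hx

theorem lift_baseChange_eq (e : Module.End ℤ H) {k N : ℕ} (hN : 0 < N)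
    (h : e.baseChange (ZMod k) * e.baseChange (ZMod k) = e.baseChange (ZMod k)) :
    (lift e N).baseChange (ZMod k) = e.baseChange (ZMod k) := by
  rw [lift_baseChange]
  exact lift_idem_aux (R := Module.End (ZMod k) (ZMod k ⊗[ℤ] H)) (e.baseChange (ZMod k)) hN h

theorem pow_apply_divisible (g : Module.End ℤ H) (k : ℤ) (h : ∀ x, ∃ y, g x = k • y) (N : ℕ) :
    ∀ x, ∃ y, (g ^ N) x = k ^ N • y := by
  induction N with
  | zero => intro x; exact ⟨x, by simp⟩
  | succ N ih =>
    intro x
    obtain ⟨y, hy⟩ := h x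
    obtain ⟨z, hz⟩ := ih y
    refine ⟨z, ?_⟩
    rw [pow_succ, Module.End.mul_apply, hy, map_smul, hz, smul_smul, pow_succ, mul_comm]

end Minus

/-! ### The count -/

section Core

variable {H : Type*} [AddCommGroup H] [Module.Free ℤ H] [Module.Finite ℤ H]

theorem natCard_free_zmod {k : ℕ} [Fact (1 < k)] {P : Type*} [AddCommGroup P] [Module (ZMod k) P]
    [Module.Free (ZMod k) P] [Module.Finite (ZMod k) P] :
    Nat.card P = k ^ finrank (ZMod k) P := by
  let b := Module.finBasis (ZMod k) P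
  rw [Nat.card_congr b.equivFun.toEquiv, Nat.card_fun, Nat.card_zmod, Nat.card_fin]

/-- The idempotent lift `f` of `e`: `f ≡ e` modulo `r ^ j`, and the rank of the reduction of `e`
is twice the rank of the reduction of `f | H⁻`. -/
theorem exists_lift_core_aux (r : ℕ) [Fact r.Prime] (j : ℕ) (hj : 0 < j) (c e : Module.End ℤ H)
    (hc : c * c = 1) (hce : Commute c e) (htr : ∀ k : ℕ, LinearMap.trace ℤ H (e ^ k * c) = 0)
    (he : e.baseChange (ZMod (r ^ j)) * e.baseChange (ZMod (r ^ j))
      = e.baseChange (ZMod (r ^ j))) :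
    ∃ (f : Module.End ℤ H) (hcf : Commute c f),
      f.baseChange (ZMod (r ^ j)) = e.baseChange (ZMod (r ^ j)) ∧
      (restr c f hcf).baseChange (ZMod (r ^ j)) * (restr c f hcf).baseChange (ZMod (r ^ j))
        = (restr c f hcf).baseChange (ZMod (r ^ j)) ∧
      finrank (ZMod r) (LinearMap.range (e.baseChange (ZMod r)))
        = 2 * finrank (ZMod r) (LinearMap.range ((restr c f hcf).baseChange (ZMod r))) := by
  have hr := (Fact.out : r.Prime)
  set n := finrank ℤ H with hn
  set m := j + 2 * n + 1 with hm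
  have hm0 : 0 < m := by omega
  have hrj : r ^ j ≠ 0 := (pow_pos hr.pos j).ne'
  have hrm : r ^ m ≠ 0 := (pow_pos hr.pos m).ne'
  have hrpow : ((r ^ j : ℕ) : ℤ) = (r : ℤ) * ((r ^ (j - 1) : ℕ) : ℤ) := by
    push_cast
    rw [← pow_succ', Nat.sub_add_cancel hj]
  -- `e - e ^ 2` is divisible by `r ^ j`
  have hdiv : ∀ x : H, ∃ y : H, (e - e ^ 2) x = ((r ^ j : ℕ) : ℤ) • y := by
    apply (baseChange_eq_zero_iff (k := r ^ j) (e - e ^ 2)).mp
    apply (baseChange_sub_eq_zero e (e ^ 2)).mpr
    rw [LinearMap.baseChange_pow, pow_two, he]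
  -- `(e - e ^ 2) ^ m` vanishes modulo `r ^ m`
  have hpow : ((e - e ^ 2) ^ m).baseChange (ZMod (r ^ m)) = 0 := by
    apply (baseChange_eq_zero_iff (k := r ^ m) _).mpr
    intro x
    obtain ⟨y, hy⟩ := pow_apply_divisible (e - e ^ 2) _ hdiv m x
    refine ⟨((r ^ (j - 1) : ℕ) : ℤ) ^ m • y, ?_⟩
    rw [hy, smul_smul, hrpow]
    congr 1
    push_cast
    ring
  set f := lift e m with hf
  have hcf : Commute c f := commute_lift hce m
  have hfm : f.baseChange (ZMod (r ^ m)) * f.baseChange (ZMod (r ^ m))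
      = f.baseChange (ZMod (r ^ m)) := lift_baseChange_idem e m hpow
  have hfj : f.baseChange (ZMod (r ^ j)) = e.baseChange (ZMod (r ^ j)) :=
    lift_baseChange_eq e hm0 he
  -- `e` is idempotent modulo `r`
  have her : e.baseChange (ZMod r) * e.baseChange (ZMod r) = e.baseChange (ZMod r) := by
    have h0 : (e - e ^ 2).baseChange (ZMod r) = 0 := by
      apply (baseChange_eq_zero_iff (k := r) _).mpr
      intro x
      obtain ⟨y, hy⟩ := hdiv x
      refine ⟨((r ^ (j - 1) : ℕ) : ℤ) • y, ?_⟩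
      rw [hy, smul_smul, hrpow]
    have h1 := (baseChange_sub_eq_zero e (e ^ 2)).mp h0
    rw [LinearMap.baseChange_pow, pow_two] at h1
    exact h1.symm
  have hfr : f.baseChange (ZMod r) = e.baseChange (ZMod r) := lift_baseChange_eq e hm0 her
  -- restriction to `H⁻`
  have hcff : Commute c (f * f - f) := (hcf.mul_right hcf).sub_right hcf
  have hres : ∀ k : ℕ, k ≠ 0 →
      f.baseChange (ZMod k) * f.baseChange (ZMod k) = f.baseChange (ZMod k) →
      (restr c f hcf).baseChange (ZMod k) * (restr c f hcf).baseChange (ZMod k)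
        = (restr c f hcf).baseChange (ZMod k) := by
    intro k hk h
    have h0 : (f * f - f).baseChange (ZMod k) = 0 := by
      apply (baseChange_sub_eq_zero (f * f) f).mpr
      rw [LinearMap.baseChange_mul, h]
    have h1 := restr_baseChange_eq_zero hcff hk h0
    have h2 : restr c (f * f - f) hcff = restr c f hcf * restr c f hcf - restr c f hcf := by
      ext x
      rfl
    rw [h2] at h1
    have h3 := (baseChange_sub_eq_zero _ _).mp h1
    rw [LinearMap.baseChange_mul] at h3
    exact h3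
  have hfjI : f.baseChange (ZMod (r ^ j)) * f.baseChange (ZMod (r ^ j))
      = f.baseChange (ZMod (r ^ j)) := by rw [hfj, he]
  refine ⟨f, hcf, hfj, hres _ hrj hfjI, ?_⟩
  -- traces
  obtain ⟨-, -, ht1⟩ := finrank_range_and_trace r m hm0 f hfm
  obtain ⟨-, -, ht2⟩ := finrank_range_and_trace r m hm0 (restr c f hcf) (hres _ hrm hfm)
  have htrf : LinearMap.trace ℤ H (f * c) = 0 := by
    rw [hf, lift_eq_aeval]
    exact trace_aeval_mul htr _
  have ht3 := trace_eq_two_mul_trace_restr hc hcf htrf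
  set b := finrank (ZMod r) (LinearMap.range ((restr c f hcf).baseChange (ZMod r))) with hb
  rw [hfr] at ht1
  set ρ := finrank (ZMod r) (LinearMap.range (e.baseChange (ZMod r))) with hρ
  have hcong : ((ρ : ℕ) : ZMod (r ^ m)) = ((2 * b : ℕ) : ZMod (r ^ m)) := by
    rw [← ht1, ht3]
    push_cast
    rw [ht2]
  have hlt : 2 * n < r ^ m := by
    calc 2 * n < m := by omega
      _ < 2 ^ m := Nat.lt_two_pow_self
      _ ≤ r ^ m := Nat.pow_le_pow_left hr.two_le m
  have hd_le : ρ ≤ n := by
    calc finrank (ZMod r) (LinearMap.range (e.baseChange (ZMod r)))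
        ≤ finrank (ZMod r) (ZMod r ⊗[ℤ] H) := Submodule.finrank_le _
      _ = n := by rw [Module.finrank_baseChange]
  have hb_le : b ≤ n := by
    calc b ≤ finrank (ZMod r) (ZMod r ⊗[ℤ] (minus c)) := Submodule.finrank_le _
      _ = finrank ℤ (minus c) := by rw [Module.finrank_baseChange]
      _ ≤ n := Submodule.finrank_le _
  have h := (ZMod.natCast_eq_natCast_iff' _ _ _).mp hcong
  rw [Nat.mod_eq_of_lt (by omega), Nat.mod_eq_of_lt (by omega)] at h
  exact h

/-- The idempotent lift `f` of `e`: `f ≡ e` modulo `r ^ j`, and the reduction of `f | H⁻` has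
rank `d`. -/
theorem exists_lift_core (r : ℕ) [Fact r.Prime] (j : ℕ) (hj : 0 < j) (c e : Module.End ℤ H)
    (hc : c * c = 1) (hce : Commute c e) (htr : ∀ k : ℕ, LinearMap.trace ℤ H (e ^ k * c) = 0)
    (he : e.baseChange (ZMod (r ^ j)) * e.baseChange (ZMod (r ^ j)) = e.baseChange (ZMod (r ^ j)))
    (d : ℕ) (hd : Nat.card (LinearMap.range (e.baseChange (ZMod r))) = r ^ (2 * d)) :
    ∃ (f : Module.End ℤ H) (hcf : Commute c f),
      f.baseChange (ZMod (r ^ j)) = e.baseChange (ZMod (r ^ j)) ∧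
      (restr c f hcf).baseChange (ZMod (r ^ j)) * (restr c f hcf).baseChange (ZMod (r ^ j))
        = (restr c f hcf).baseChange (ZMod (r ^ j)) ∧
      finrank (ZMod r) (LinearMap.range ((restr c f hcf).baseChange (ZMod r))) = d := by
  have hr := (Fact.out : r.Prime)
  obtain ⟨f, hcf, h1, h2, h3⟩ := exists_lift_core_aux r j hj c e hc hce htr he
  refine ⟨f, hcf, h1, h2, ?_⟩
  have h2d : finrank (ZMod r) (LinearMap.range (e.baseChange (ZMod r))) = 2 * d := by
    have h := Module.natCard_eq_pow_finrank (K := ZMod r)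
      (V := LinearMap.range (e.baseChange (ZMod r)))
    rw [hd, Nat.card_zmod] at h
    exact (Nat.pow_right_injective hr.two_le h).symm
  omega

/-- **Evenness.** The reduction of `e` modulo `r` has even rank: `#e (H / r) = r ^ (2 d)`. -/
theorem exists_card_range_eq (r : ℕ) [Fact r.Prime] (j : ℕ) (hj : 0 < j) (c e : Module.End ℤ H)
    (hc : c * c = 1) (hce : Commute c e) (htr : ∀ k : ℕ, LinearMap.trace ℤ H (e ^ k * c) = 0)
    (he : e.baseChange (ZMod (r ^ j)) * e.baseChange (ZMod (r ^ j))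
      = e.baseChange (ZMod (r ^ j))) :
    ∃ d : ℕ, Nat.card (LinearMap.range (e.baseChange (ZMod r))) = r ^ (2 * d) := by
  obtain ⟨f, hcf, -, -, h3⟩ := exists_lift_core_aux r j hj c e hc hce htr he
  refine ⟨finrank (ZMod r) (LinearMap.range ((restr c f hcf).baseChange (ZMod r))), ?_⟩
  have h := Module.natCard_eq_pow_finrank (K := ZMod r)
    (V := LinearMap.range (e.baseChange (ZMod r)))
  rw [h, Nat.card_zmod, h3]

omit [Module.Finite ℤ H] in
/-- Elements of `(c - 1) e (H / k)` come from `f (H⁻ / k)`. -/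
theorem exists_preimage {k : ℕ} {c e f : Module.End ℤ H} (hc : c * c = 1) (hcf : Commute c f)
    (hfk : f.baseChange (ZMod k) = e.baseChange (ZMod k))
    (hfI : f.baseChange (ZMod k) * f.baseChange (ZMod k) = f.baseChange (ZMod k)) :
    ∀ u ∈ LinearMap.range (((c - 1) * e).baseChange (ZMod k)),
      ∃ v ∈ LinearMap.range ((restr c f hcf).baseChange (ZMod k)),
        (minus c).subtype.baseChange (ZMod k) v = u := by
  rintro u ⟨w, rfl⟩
  obtain ⟨x, rfl⟩ := exists_one_tmul w
  obtain ⟨z, hz⟩ := (baseChange_eq_zero_iff (k := k) (f - e)).mp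
    ((baseChange_sub_eq_zero f e).mpr hfk) x
  obtain ⟨w', hw'⟩ := (baseChange_eq_zero_iff (k := k) (f * f - f)).mp
    ((baseChange_sub_eq_zero (f * f) f).mpr (by rw [LinearMap.baseChange_mul, hfI])) x
  let y : minus c := ⟨c (f x) - f x, sub_mem_minus hc (f x)⟩
  refine ⟨(restr c f hcf).baseChange (ZMod k) ((1 : ZMod k) ⊗ₜ[ℤ] y), ⟨_, rfl⟩, ?_⟩
  rw [LinearMap.baseChange_tmul, LinearMap.baseChange_tmul, LinearMap.baseChange_tmul]
  have h1 : f (f x) = f x + (k : ℤ) • w' := by
    rw [← hw', LinearMap.sub_apply, Module.End.mul_apply]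
    abel
  have h2 : e x = f x - (k : ℤ) • z := by
    rw [← hz, LinearMap.sub_apply]
    abel
  have key : ((minus c).subtype (restr c f hcf y) : H)
      = ((c - 1) * e) x + (k : ℤ) • ((c w' - w') + (c z - z)) := by
    change f (c (f x) - f x) = _
    rw [map_sub, ← commute_apply hcf (f x), h1, Module.End.mul_apply, LinearMap.sub_apply,
      Module.End.one_apply, h2]
    simp only [map_add, map_sub, map_smul, smul_add, smul_sub]
    abel
  rw [key, TensorProduct.tmul_add, one_tmul_nsmul_self, add_zero]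

/-- **L6, abstract, any prime `r`, any level `j`.** `#(c - 1) e (H / r^j) ≤ r^(d j)`. -/
theorem card_conj_range_le (r : ℕ) [Fact r.Prime] (j : ℕ) (hj : 0 < j) (c e : Module.End ℤ H)
    (hc : c * c = 1) (hce : Commute c e) (htr : ∀ k : ℕ, LinearMap.trace ℤ H (e ^ k * c) = 0)
    (he : e.baseChange (ZMod (r ^ j)) * e.baseChange (ZMod (r ^ j)) = e.baseChange (ZMod (r ^ j)))
    (d : ℕ) (hd : Nat.card (LinearMap.range (e.baseChange (ZMod r))) = r ^ (2 * d)) :
    Nat.card (LinearMap.range (((c - 1) * e).baseChange (ZMod (r ^ j)))) ≤ r ^ (d * j) := by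
  have hr := (Fact.out : r.Prime)
  have : Fact (1 < r ^ j) := ⟨Nat.one_lt_pow hj.ne' hr.one_lt⟩
  have : NeZero (r ^ j) := ⟨(pow_pos hr.pos j).ne'⟩
  obtain ⟨f, hcf, hfj, hfI, hb⟩ := exists_lift_core r j hj c e hc hce htr he d hd
  obtain ⟨hfree, hrk, -⟩ := finrank_range_and_trace r j hj (restr c f hcf) hfI
  have hpre := exists_preimage hc hcf hfj (by rw [hfj, he])
  haveI : Finite (ZMod (r ^ j) ⊗[ℤ] (minus c)) := Module.finite_of_finite (ZMod (r ^ j))
  choose! φ hφ1 hφ2 using hpre
  have hinj : Function.Injective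
      (fun u : LinearMap.range (((c - 1) * e).baseChange (ZMod (r ^ j))) =>
        (⟨φ u, hφ1 u u.2⟩ : LinearMap.range ((restr c f hcf).baseChange (ZMod (r ^ j))))) := by
    intro u u' h
    have h' := congrArg
      (fun v : LinearMap.range ((restr c f hcf).baseChange (ZMod (r ^ j))) =>
        (minus c).subtype.baseChange (ZMod (r ^ j)) v.1) h
    simp only at h'
    rw [hφ2 u u.2, hφ2 u' u'.2] at h'
    exact Subtype.ext h'
  calc Nat.card (LinearMap.range (((c - 1) * e).baseChange (ZMod (r ^ j))))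
      ≤ Nat.card (LinearMap.range ((restr c f hcf).baseChange (ZMod (r ^ j)))) :=
        Nat.card_le_card_of_injective _ hinj
    _ = (r ^ j) ^ finrank (ZMod (r ^ j))
          (LinearMap.range ((restr c f hcf).baseChange (ZMod (r ^ j)))) := natCard_free_zmod
    _ = r ^ (d * j) := by rw [hrk, hb, ← pow_mul, mul_comm]

/-- `exists_lift_core` with the modulus as a variable. -/
theorem exists_lift_core' (r : ℕ) [Fact r.Prime] (j : ℕ) (hj : 0 < j) (k : ℕ) (hk : k = r ^ j)
    (c e : Module.End ℤ H) (hc : c * c = 1) (hce : Commute c e)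
    (htr : ∀ i : ℕ, LinearMap.trace ℤ H (e ^ i * c) = 0)
    (he : e.baseChange (ZMod k) * e.baseChange (ZMod k) = e.baseChange (ZMod k))
    (d : ℕ) (hd : Nat.card (LinearMap.range (e.baseChange (ZMod r))) = r ^ (2 * d)) :
    ∃ (f : Module.End ℤ H) (hcf : Commute c f),
      f.baseChange (ZMod k) = e.baseChange (ZMod k) ∧
      ∃ _ : Module.Free (ZMod k) (LinearMap.range ((restr c f hcf).baseChange (ZMod k))),
        finrank (ZMod k) (LinearMap.range ((restr c f hcf).baseChange (ZMod k))) = d := by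
  subst hk
  obtain ⟨f, hcf, hfj, hfI, hb⟩ := exists_lift_core r j hj c e hc hce htr he d hd
  obtain ⟨hfree, hrk, -⟩ := finrank_range_and_trace r j hj (restr c f hcf) hfI
  exact ⟨f, hcf, hfj, hfree, by rw [hrk, hb]⟩

theorem card_two_torsion {P : Type*} [AddCommGroup P] [Module (ZMod 4) P]
    [Module.Free (ZMod 4) P] [Module.Finite (ZMod 4) P] :
    Nat.card {v : P // (2 : ZMod 4) • v = 0} = 2 ^ finrank (ZMod 4) P := by
  haveI : Fact (1 < 4) := ⟨by norm_num⟩
  let b := Module.finBasis (ZMod 4) P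
  have e1 : {v : P // (2 : ZMod 4) • v = 0} ≃
      {g : Fin (finrank (ZMod 4) P) → ZMod 4 // ∀ i, (2 : ZMod 4) * g i = 0} :=
    b.equivFun.toEquiv.subtypeEquiv (fun v => by
      constructor
      · intro h i
        have h' := congrArg (fun w => b.equivFun w i) h
        simpa using h'
      · intro h
        apply b.equivFun.injective
        ext i
        simpa using h i)
  have e2 : {g : Fin (finrank (ZMod 4) P) → ZMod 4 // ∀ i, (2 : ZMod 4) * g i = 0} ≃
      (Fin (finrank (ZMod 4) P) → {a : ZMod 4 // (2 : ZMod 4) * a = 0}) :=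
    Equiv.subtypePiEquivPi (β := fun _ => ZMod 4) (p := fun _ a => (2 : ZMod 4) * a = 0)
  have h2 : Nat.card {a : ZMod 4 // (2 : ZMod 4) * a = 0} = 2 := by
    rw [Nat.card_eq_fintype_card]
    rfl
  rw [Nat.card_congr e1, Nat.card_congr e2, Nat.card_fun, h2, Nat.card_fin]

/-- **L6, abstract, `r = 2`.** The `2`-torsion of `(c - 1) e (H / 4)` has at most `2 ^ d`
elements. -/
theorem card_conj_range_two_torsion_le (c e : Module.End ℤ H)
    (hc : c * c = 1) (hce : Commute c e) (htr : ∀ k : ℕ, LinearMap.trace ℤ H (e ^ k * c) = 0)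
    (he : e.baseChange (ZMod 4) * e.baseChange (ZMod 4) = e.baseChange (ZMod 4))
    (d : ℕ) (hd : Nat.card (LinearMap.range (e.baseChange (ZMod 2))) = 2 ^ (2 * d)) :
    Nat.card {u : ZMod 4 ⊗[ℤ] H // (2 : ZMod 4) • u = 0 ∧
      u ∈ LinearMap.range (((c - 1) * e).baseChange (ZMod 4))} ≤ 2 ^ d := by
  haveI : Fact (Nat.Prime 2) := ⟨Nat.prime_two⟩
  obtain ⟨f, hcf, hfj, hfree, hrk⟩ :=
    exists_lift_core' 2 2 (by norm_num) 4 (by norm_num) c e hc hce htr he d hd
  have hpre := exists_preimage (k := 4) hc hcf hfj (by rw [hfj, he])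
  have hinj := subtype_baseChange_injective c (k := 4) (by norm_num)
  haveI : Finite (ZMod 4 ⊗[ℤ] (minus c)) := Module.finite_of_finite (ZMod 4)
  choose! φ hφ1 hφ2 using hpre
  have hφ : ∀ u : {u : ZMod 4 ⊗[ℤ] H // (2 : ZMod 4) • u = 0 ∧
      u ∈ LinearMap.range (((c - 1) * e).baseChange (ZMod 4))},
      (2 : ZMod 4) • (⟨φ u, hφ1 u u.2.2⟩ :
        LinearMap.range ((restr c f hcf).baseChange (ZMod 4))) = 0 := by
    intro u
    apply Subtype.ext
    apply hinj
    rw [Submodule.coe_smul, map_smul, hφ2 u u.2.2, u.2.1, Submodule.coe_zero, map_zero]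
  have hinj2 : Function.Injective
      (fun u : {u : ZMod 4 ⊗[ℤ] H // (2 : ZMod 4) • u = 0 ∧
          u ∈ LinearMap.range (((c - 1) * e).baseChange (ZMod 4))} =>
        (⟨⟨φ u, hφ1 u u.2.2⟩, hφ u⟩ :
          {v : LinearMap.range ((restr c f hcf).baseChange (ZMod 4)) // (2 : ZMod 4) • v = 0})) := by
    intro u u' h
    have h' := congrArg
      (fun v : {v : LinearMap.range ((restr c f hcf).baseChange (ZMod 4)) //
          (2 : ZMod 4) • v = 0} => (minus c).subtype.baseChange (ZMod 4) v.1.1) h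
    simp only at h'
    rw [hφ2 u u.2.2, hφ2 u' u'.2.2] at h'
    exact Subtype.ext h'
  haveI : Finite (LinearMap.range ((restr c f hcf).baseChange (ZMod 4))) :=
    Finite.of_injective (fun v => (v : ZMod 4 ⊗[ℤ] (minus c))) Subtype.val_injective
  have h1 := Nat.card_le_card_of_injective _ hinj2
  have h2 := card_two_torsion (P := LinearMap.range ((restr c f hcf).baseChange (ZMod 4)))
  rw [hrk] at h2
  exact h1.trans h2.le

end Core

end

end Fermat.Agent.S15P.Real.HalfCount29
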