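/-
S15 (LOC-∞, the real place), consumer of L6, abstract half (helper47).

`J` an abelian group, `H` a finite free `ℤ`-module.  A *transport at level `n`* is a map
`Ψ : J → ZMod n ⊗ H`, additive, injective on `J[n]` and onto from `J[n]`.  If an endomorphism `EJ`
of `J` and an additive map `cJ` of `J` correspond under transports at levels `r ^ j` and `r` to the
base changes of endomorphisms `EH`, `cH` of `H` satisfying the hypotheses of helper29's
`HalfCount29.card_conj_range_le`, then `#(cJ - 1) EJ (J[r ^ j]) ≤ r ^ (d j)`, where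
`#{x ∈ J[r] : EJ x = x} = r ^ (2 d)`.  Also the `r = 2` two-torsion variant, and the transport of
non-commutative words in a family of operators.

Mathlib + `HalfCount29` only.
-/
import Mathlib
import Fermat.Agent.S15P.Real.HalfCount29

set_option autoImplicit false

open scoped TensorProduct
open Module

namespace Fermat.Agent.S15P.Real.ConjCountAbs47

noncomputable section

variable {J : Type*} [AddCommGroup J] {H : Type*} [AddCommGroup H]

/-- `Ψ` is additive on `J[n]`, injective on `J[n]`, and maps `J[n]` onto `ZMod n ⊗ H`. -/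
structure IsTransport (n : ℕ) (Ψ : J → ZMod n ⊗[ℤ] H) : Prop where
  add : ∀ x y : J, n • x = 0 → n • y = 0 → Ψ (x + y) = Ψ x + Ψ y
  inj : ∀ x y : J, n • x = 0 → n • y = 0 → Ψ x = Ψ y → x = y
  surj : ∀ v : ZMod n ⊗[ℤ] H, ∃ x : J, n • x = 0 ∧ Ψ x = v

theorem nsmul_map_eq_zero {n : ℕ} (A : J →+ J) {x : J} (hx : n • x = 0) : n • A x = 0 := by
  rw [← map_nsmul, hx, map_zero]

theorem nsmul_end_eq_zero {n : ℕ} (A : Module.End ℤ J) {x : J} (hx : n • x = 0) :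
    n • A x = 0 := by
  rw [← map_nsmul, hx, map_zero]

namespace IsTransport

variable {n : ℕ} {Ψ : J → ZMod n ⊗[ℤ] H}

theorem sub (h : IsTransport n Ψ) {x y : J} (hx : n • x = 0) (hy : n • y = 0) :
    Ψ (x - y) = Ψ x - Ψ y := by
  have h1 := h.add (x - y) y (by rw [smul_sub, hx, hy, sub_zero]) hy
  rw [sub_add_cancel] at h1
  rw [h1, add_sub_cancel_right]

theorem zero (h : IsTransport n Ψ) : Ψ 0 = 0 := by
  have h1 := h.sub (x := 0) (y := 0) (smul_zero n) (smul_zero n)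
  rw [sub_self] at h1
  rw [h1, sub_self]

theorem zsmul (h : IsTransport n Ψ) (a : ℤ) {x : J} (hx : n • x = 0) :
    Ψ (a • x) = a • Ψ x := by
  have hmem : ∀ b : ℤ, n • (b • x) = 0 := fun b => by
    rw [smul_comm, hx, smul_zero]
  induction a using Int.induction_on with
  | zero => rw [zero_smul, zero_smul, h.zero]
  | succ i ih =>
    rw [add_smul, one_smul, h.add _ _ (hmem _) hx, ih, add_smul, one_smul]
  | pred i ih =>
    rw [sub_smul, one_smul, h.sub (hmem _) hx, ih, sub_smul, one_smul]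

end IsTransport

/-! ### Transport of words -/

section Words

variable {ι : Type*} {n : ℕ}

/-- If the generators `TJ i`, `i ∈ good`, correspond to the base changes of `TH i` on `J[n]`, so
do all non-commutative words in them. -/
theorem word_transport {Ψ : J → ZMod n ⊗[ℤ] H} (h : IsTransport n Ψ)
    (TJ : ι → Module.End ℤ J) (TH : ι → Module.End ℤ H) (good : Set ι)
    (hT : ∀ i ∈ good, ∀ x : J, n • x = 0 → Ψ (TJ i x) = (TH i).baseChange (ZMod n) (Ψ x))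
    (w : FreeAlgebra ℤ ι) (hw : w ∈ Algebra.adjoin ℤ (FreeAlgebra.ι ℤ '' good)) :
    ∀ x : J, n • x = 0 →
      Ψ (FreeAlgebra.lift ℤ TJ w x) = (FreeAlgebra.lift ℤ TH w).baseChange (ZMod n) (Ψ x) := by
  induction hw using Algebra.adjoin_induction with
  | mem w hw =>
    obtain ⟨i, hi, rfl⟩ := hw
    intro x hx
    rw [FreeAlgebra.lift_ι_apply, FreeAlgebra.lift_ι_apply]
    exact hT i hi x hx
  | algebraMap a =>
    intro x hx
    rw [AlgHom.commutes, AlgHom.commutes, Module.algebraMap_end_apply,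
      Algebra.algebraMap_eq_smul_one, LinearMap.baseChange_smul, LinearMap.baseChange_one,
      LinearMap.smul_apply, Module.End.one_apply, h.zsmul a hx]
  | add u v _ _ hu hv =>
    intro x hx
    rw [map_add, map_add, LinearMap.add_apply, LinearMap.baseChange_add, LinearMap.add_apply,
      h.add _ _ (nsmul_end_eq_zero _ hx) (nsmul_end_eq_zero _ hx), hu x hx, hv x hx]
  | mul u v _ _ hu hv =>
    intro x hx
    rw [map_mul, map_mul, Module.End.mul_apply, LinearMap.baseChange_mul, Module.End.mul_apply,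
      hu _ (nsmul_end_eq_zero _ hx), hv x hx]

/-- A word in the `TH i` lies in the subalgebra they generate. -/
theorem lift_mem_adjoin {A : Type*} [Ring A] [Algebra ℤ A] (T : ι → A) (w : FreeAlgebra ℤ ι) :
    FreeAlgebra.lift ℤ T w ∈ Algebra.adjoin ℤ (Set.range T) := by
  induction w using FreeAlgebra.induction with
  | grade0 a =>
    rw [AlgHom.commutes]
    exact Subalgebra.algebraMap_mem _ a
  | grade1 i =>
    rw [FreeAlgebra.lift_ι_apply]
    exact Algebra.subset_adjoin ⟨i, rfl⟩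
  | mul a b ha hb =>
    rw [map_mul]
    exact mul_mem ha hb
  | add a b ha hb =>
    rw [map_add]
    exact add_mem ha hb

end Words

/-! ### The counts -/

section Count

theorem finite_tensor [Module.Finite ℤ H] (n : ℕ) [NeZero n] : Finite (ZMod n ⊗[ℤ] H) :=
  Module.finite_of_finite (ZMod n)

/-- `EH ⊗ ZMod n` is idempotent if `EJ` is idempotent on `J[n]`. -/
theorem baseChange_idem {n : ℕ} {Ψ : J → ZMod n ⊗[ℤ] H} (h : IsTransport n Ψ)
    (EJ : Module.End ℤ J) (EH : Module.End ℤ H)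
    (hEΨ : ∀ x : J, n • x = 0 → Ψ (EJ x) = EH.baseChange (ZMod n) (Ψ x))
    (hE : ∀ x : J, n • x = 0 → EJ (EJ x) = EJ x) :
    EH.baseChange (ZMod n) * EH.baseChange (ZMod n) = EH.baseChange (ZMod n) := by
  refine LinearMap.ext fun v => ?_
  obtain ⟨x, hx, rfl⟩ := h.surj v
  rw [Module.End.mul_apply, ← hEΨ x hx, ← hEΨ _ (nsmul_end_eq_zero EJ hx), hE x hx]

/-- The fixed points of `EJ` in `J[n]` correspond to the range of `EH ⊗ ZMod n`. -/
theorem card_fixed_eq {n : ℕ} {Ψ : J → ZMod n ⊗[ℤ] H} (h : IsTransport n Ψ)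
    (EJ : Module.End ℤ J) (EH : Module.End ℤ H)
    (hEΨ : ∀ x : J, n • x = 0 → Ψ (EJ x) = EH.baseChange (ZMod n) (Ψ x))
    (hE : ∀ x : J, n • x = 0 → EJ (EJ x) = EJ x) :
    Nat.card {x : J // n • x = 0 ∧ EJ x = x}
      = Nat.card (LinearMap.range (EH.baseChange (ZMod n))) := by
  refine Nat.card_congr (Equiv.ofBijective
    (fun x : {x : J // n • x = 0 ∧ EJ x = x} =>
      (⟨Ψ x.1, ⟨Ψ x.1, by rw [← hEΨ x.1 x.2.1, x.2.2]⟩⟩ :
        LinearMap.range (EH.baseChange (ZMod n)))) ⟨?_, ?_⟩)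
  · intro x y hxy
    exact Subtype.ext (h.inj _ _ x.2.1 y.2.1 (congrArg Subtype.val hxy))
  · rintro ⟨v, ⟨v', rfl⟩⟩
    obtain ⟨t, ht, rfl⟩ := h.surj v'
    exact ⟨⟨EJ t, nsmul_end_eq_zero EJ ht, hE t ht⟩, Subtype.ext (hEΨ t ht)⟩

/-- For `F` idempotent on `J[n]`, the image `F (J[n])` is the set of fixed points of `F` in
`J[n]`. -/
theorem card_image_eq_card_fixed (n : ℕ) (F : Module.End ℤ J)
    (hidem : ∀ x : J, n • x = 0 → F (F x) = F x) :
    Nat.card {g : J // ∃ x : J, n • x = 0 ∧ g = F x}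
      = Nat.card {x : J // n • x = 0 ∧ F x = x} := by
  refine Nat.card_congr (Equiv.subtypeEquivRight fun g => ⟨?_, ?_⟩)
  · rintro ⟨x, hx, rfl⟩
    exact ⟨nsmul_end_eq_zero F hx, hidem x hx⟩
  · rintro ⟨h1, h2⟩
    exact ⟨g, h1, h2.symm⟩

/-- The image of `(cJ - 1) EJ` on `J[n]` in terms of `((cH - 1) EH) ⊗ ZMod n`. -/
theorem psi_conj_sub {n : ℕ} {Ψ : J → ZMod n ⊗[ℤ] H} (h : IsTransport n Ψ)
    (cJ : J →+ J) (EJ : Module.End ℤ J) (cH EH : Module.End ℤ H)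
    (hEΨ : ∀ x : J, n • x = 0 → Ψ (EJ x) = EH.baseChange (ZMod n) (Ψ x))
    (hcΨ : ∀ x : J, n • x = 0 → Ψ (cJ x) = cH.baseChange (ZMod n) (Ψ x))
    {t : J} (ht : n • t = 0) :
    Ψ (cJ (EJ t) - EJ t) = ((cH - 1) * EH).baseChange (ZMod n) (Ψ t) := by
  have h1 : n • EJ t = 0 := nsmul_end_eq_zero EJ ht
  rw [h.sub (nsmul_map_eq_zero cJ h1) h1, hcΨ _ h1, hEΨ t ht, LinearMap.baseChange_mul,
    LinearMap.baseChange_sub, LinearMap.baseChange_one, Module.End.mul_apply,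
    LinearMap.sub_apply, Module.End.one_apply]

theorem nsmul_conj_sub {n : ℕ} (cJ : J →+ J) (EJ : Module.End ℤ J) {t : J} (ht : n • t = 0) :
    n • (cJ (EJ t) - EJ t) = 0 := by
  have h1 : n • EJ t = 0 := nsmul_end_eq_zero EJ ht
  rw [smul_sub, nsmul_map_eq_zero cJ h1, h1, sub_zero]

variable [Module.Free ℤ H] [Module.Finite ℤ H]

/-- **L6 on `J`, any prime `r`, any level `j`**: `#(cJ - 1) EJ (J[r^j]) ≤ r^(d j)`. -/
theorem card_conj_sub_le_of_transport (r : ℕ) [Fact r.Prime] (j : ℕ) (hj : 0 < j)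
    (cJ : J →+ J) (EJ : Module.End ℤ J) (cH EH : Module.End ℤ H)
    (hc : cH * cH = 1) (hce : Commute cH EH)
    (htr : ∀ k : ℕ, LinearMap.trace ℤ H (EH ^ k * cH) = 0)
    {Ψj : J → ZMod (r ^ j) ⊗[ℤ] H} (hj' : IsTransport (r ^ j) Ψj)
    (hEj : ∀ x : J, r ^ j • x = 0 → Ψj (EJ x) = EH.baseChange (ZMod (r ^ j)) (Ψj x))
    (hcj : ∀ x : J, r ^ j • x = 0 → Ψj (cJ x) = cH.baseChange (ZMod (r ^ j)) (Ψj x))
    {Ψ1 : J → ZMod r ⊗[ℤ] H} (h1 : IsTransport r Ψ1)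
    (hE1 : ∀ x : J, r • x = 0 → Ψ1 (EJ x) = EH.baseChange (ZMod r) (Ψ1 x))
    (hE : ∀ x : J, r ^ j • x = 0 → EJ (EJ x) = EJ x)
    (d : ℕ) (hd : Nat.card {x : J // r • x = 0 ∧ EJ x = x} = r ^ (2 * d)) :
    Nat.card {u : J // ∃ t : J, r ^ j • t = 0 ∧ u = cJ (EJ t) - EJ t} ≤ r ^ (d * j) := by
  have hr := (Fact.out : r.Prime)
  have : NeZero (r ^ j) := ⟨(pow_pos hr.pos j).ne'⟩
  have : Finite (ZMod (r ^ j) ⊗[ℤ] H) := finite_tensor (r ^ j)
  have hE' : ∀ x : J, r • x = 0 → EJ (EJ x) = EJ x := by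
    intro x hx
    apply hE
    obtain ⟨i, rfl⟩ : ∃ i, j = i + 1 := ⟨j - 1, by omega⟩
    rw [pow_succ', mul_nsmul, hx, smul_zero]
  have he := baseChange_idem hj' EJ EH hEj hE
  have hd' : Nat.card (LinearMap.range (EH.baseChange (ZMod r))) = r ^ (2 * d) := by
    rw [← card_fixed_eq h1 EJ EH hE1 hE', hd]
  have key := HalfCount29.card_conj_range_le r j hj cH EH hc hce htr he d hd'
  refine le_trans (Nat.card_le_card_of_injective
    (fun u : {u : J // ∃ t : J, r ^ j • t = 0 ∧ u = cJ (EJ t) - EJ t} =>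
      (⟨Ψj u.1, by
        obtain ⟨t, ht, hu⟩ := u.2
        exact ⟨Ψj t, by rw [hu, psi_conj_sub hj' cJ EJ cH EH hEj hcj ht]⟩⟩ :
        LinearMap.range (((cH - 1) * EH).baseChange (ZMod (r ^ j))))) ?_) key
  intro u u' huu
  obtain ⟨t, ht, hu⟩ := u.2
  obtain ⟨t', ht', hu'⟩ := u'.2
  apply Subtype.ext
  refine hj'.inj _ _ ?_ ?_ (congrArg Subtype.val huu)
  · rw [hu]
    exact nsmul_conj_sub cJ EJ ht
  · rw [hu']
    exact nsmul_conj_sub cJ EJ ht'

/-- **Evenness**: `#{x ∈ J[r] : EJ x = x} = r^(2d)` for some `d`. -/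
theorem exists_card_fixed_eq_of_transport (r : ℕ) [Fact r.Prime]
    (EJ : Module.End ℤ J) (cH EH : Module.End ℤ H)
    (hc : cH * cH = 1) (hce : Commute cH EH)
    (htr : ∀ k : ℕ, LinearMap.trace ℤ H (EH ^ k * cH) = 0)
    {Ψ1' : J → ZMod (r ^ 1) ⊗[ℤ] H} (h1' : IsTransport (r ^ 1) Ψ1')
    (hE1' : ∀ x : J, r ^ 1 • x = 0 → Ψ1' (EJ x) = EH.baseChange (ZMod (r ^ 1)) (Ψ1' x))
    {Ψ1 : J → ZMod r ⊗[ℤ] H} (h1 : IsTransport r Ψ1)
    (hE1 : ∀ x : J, r • x = 0 → Ψ1 (EJ x) = EH.baseChange (ZMod r) (Ψ1 x))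
    (hE : ∀ x : J, r • x = 0 → EJ (EJ x) = EJ x) :
    ∃ d : ℕ, Nat.card {x : J // r • x = 0 ∧ EJ x = x} = r ^ (2 * d) := by
  have he := baseChange_idem h1' EJ EH hE1' (fun x hx => hE x (by rwa [pow_one] at hx))
  obtain ⟨d, hd⟩ := HalfCount29.exists_card_range_eq r 1 one_pos cH EH hc hce htr he
  exact ⟨d, by rw [card_fixed_eq h1 EJ EH hE1 hE, hd]⟩

/-- **L6 on `J`, `r = 2`**: the `2`-torsion of `(cJ - 1) EJ (J[4])` has at most `2^d` elements. -/
theorem card_conj_sub_two_le_of_transport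
    (cJ : J →+ J) (EJ : Module.End ℤ J) (cH EH : Module.End ℤ H)
    (hc : cH * cH = 1) (hce : Commute cH EH)
    (htr : ∀ k : ℕ, LinearMap.trace ℤ H (EH ^ k * cH) = 0)
    {Ψ4 : J → ZMod 4 ⊗[ℤ] H} (h4 : IsTransport 4 Ψ4)
    (hE4 : ∀ x : J, 4 • x = 0 → Ψ4 (EJ x) = EH.baseChange (ZMod 4) (Ψ4 x))
    (hc4 : ∀ x : J, 4 • x = 0 → Ψ4 (cJ x) = cH.baseChange (ZMod 4) (Ψ4 x))
    {Ψ2 : J → ZMod 2 ⊗[ℤ] H} (h2 : IsTransport 2 Ψ2)
    (hE2 : ∀ x : J, 2 • x = 0 → Ψ2 (EJ x) = EH.baseChange (ZMod 2) (Ψ2 x))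
    (hE : ∀ x : J, 4 • x = 0 → EJ (EJ x) = EJ x)
    (d : ℕ) (hd : Nat.card {x : J // 2 • x = 0 ∧ EJ x = x} = 2 ^ (2 * d)) :
    Nat.card {u : J // 2 • u = 0 ∧ ∃ t : J, 4 • t = 0 ∧ u = cJ (EJ t) - EJ t} ≤ 2 ^ d := by
  have : NeZero (4 : ℕ) := ⟨by norm_num⟩
  have : Finite (ZMod 4 ⊗[ℤ] H) := finite_tensor 4
  have hE' : ∀ x : J, 2 • x = 0 → EJ (EJ x) = EJ x := by
    intro x hx
    apply hE
    rw [show (4 : ℕ) = 2 * 2 from rfl, mul_nsmul, hx, smul_zero]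
  have he := baseChange_idem h4 EJ EH hE4 hE
  have hd' : Nat.card (LinearMap.range (EH.baseChange (ZMod 2))) = 2 ^ (2 * d) := by
    rw [← card_fixed_eq h2 EJ EH hE2 hE', hd]
  have key := HalfCount29.card_conj_range_two_torsion_le cH EH hc hce htr he d hd'
  have h4u : ∀ u : J, (∃ t : J, 4 • t = 0 ∧ u = cJ (EJ t) - EJ t) → 4 • u = 0 := by
    rintro u ⟨t, ht, rfl⟩
    exact nsmul_conj_sub cJ EJ ht
  refine le_trans (Nat.card_le_card_of_injective
    (fun u : {u : J // 2 • u = 0 ∧ ∃ t : J, 4 • t = 0 ∧ u = cJ (EJ t) - EJ t} =>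
      (⟨Ψ4 u.1, by
        obtain ⟨hu2, t, ht, hu⟩ := u.2
        refine ⟨?_, ⟨Ψ4 t, by rw [hu, psi_conj_sub h4 cJ EJ cH EH hE4 hc4 ht]⟩⟩
        have e1 : (2 : ZMod 4) • Ψ4 u.1 = (2 : ℤ) • Ψ4 u.1 := by
          rw [← Int.cast_smul_eq_zsmul (ZMod 4) (2 : ℤ) (Ψ4 u.1)]
          norm_num
        rw [e1, ← h4.zsmul 2 (h4u _ u.2.2), show ((2 : ℤ) • u.1 : J) = 2 • u.1 from by
          rw [← natCast_zsmul]; rfl, hu2, h4.zero]⟩ :
        {v : ZMod 4 ⊗[ℤ] H // (2 : ZMod 4) • v = 0 ∧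
          v ∈ LinearMap.range (((cH - 1) * EH).baseChange (ZMod 4))})) ?_) key
  intro u u' huu
  apply Subtype.ext
  exact h4.inj _ _ (h4u _ u.2.2) (h4u _ u'.2.2) (congrArg Subtype.val huu)

end Count

end

end Fermat.Agent.S15P.Real.ConjCountAbs47
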