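/-
S15 (LOC-∞, the real place), brick (R3) (helper47): the Kummer isomorphism
`κ : J₀(N)[n] ≃ Hom_pe(Γ₀(N), ℤ/n)` intertwines complex conjugation with
`φ ↦ -(φ ∘ jConj)`.

Inputs: main's `Jac.exists_kummerEquiv` (ESJ/Jac/System), the equivariance of Kummer pairs under
semilinear automorphisms (ESJ/Cong/TorsionESK) and (R2) `KummerConj47.isKummerChar_conj`.
-/
import Mathlib
import Fermat.Agent.ESJ.Jac.System
import Fermat.Agent.ESJ.Cong.TorsionESK
import Fermat.Agent.S15P.Real.KummerConj47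

set_option autoImplicit false

open scoped MatrixGroups ComplexConjugate
open CongruenceSubgroup ModularCurve ModularCurve.Period AlgebraicCurve

noncomputable section

namespace Fermat.Agent.S15P.Real.KummerEquivConj47

open Fermat.Agent.S24 Fermat.Agent.ESJ.Jac Fermat.Agent.ESJ.ParHom
open Fermat.Agent.S15P.Real.ReflMer47 Fermat.Agent.S15P.Real.KummerConj47

/-- `conj (ζ_n^a) = ζ_n^(-a)`. -/
theorem conj_coe_zmodExp (n : ℕ) [NeZero n] (a : ZMod n) :
    conj ((Additive.toMul (zmodExp n a) : ℂˣ) : ℂ)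
      = ((Additive.toMul (zmodExp n (-a)) : ℂˣ) : ℂ) := by
  rw [map_neg, toMul_neg, Units.val_inv_eq_inv_val, coe_zmodExp, ← Complex.exp_conj,
    ← Complex.exp_neg]
  congr 1
  simp only [map_div₀, map_mul, Complex.conj_ofReal, Complex.conj_I, map_ofNat, map_natCast]
  ring

/-- The conjugate of the character of `φ` is the character of `-(φ ∘ jConj)`. -/
theorem conjChar_peChar (N n : ℕ) [NeZero n] (φ : Additive (Gamma0 N) →+ ZMod n) :
    conjChar N (peChar (Gamma0 N) n φ)
      = peChar (Gamma0 N) n (-(φ.comp (MonoidHom.toAdditive (jConjGamma0 N)))) := by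
  refine MonoidHom.ext fun γ => Units.ext ?_
  rw [conjChar_apply, peChar_apply, peChar_apply, conj_coe_zmodExp]
  rfl

/-- Kummer pairs under complex conjugation. -/
theorem isKummerPair_conj {N n : ℕ} [NeZero N] {x : JZero N} {f : FN N}
    (h : IsKummerPair n (x : Pic0 KQ (FN N)) f) :
    IsKummerPair n ((complexConjugation • x : JZero N) : Pic0 KQ (FN N))
      (arithmeticRingAut (modularFunctionFieldFull N) complexConjugation f) :=
  Fermat.Agent.ESJ.Cong.TorsionESK.isKummerPair_semilinear_smul h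
    (arithmeticGalois (modularFunctionFieldFull N) complexConjugation)

/-- **(R3)** The Kummer isomorphism, with its behaviour under complex conjugation. -/
theorem exists_kummerEquiv_conj (N : ℕ) [NeZero N]
    (h : KummerSystem N (fun n f χ => IsKummerChar iotaK N n f χ)) {n : ℕ} (hn : 0 < n) :
    haveI : NeZero n := ⟨hn.ne'⟩
    ∃ κ : Pic0.torsion KQ (FN N) n ≃+ peHoms (Gamma0 N) ℤ (ZMod n),
      (∀ (x : Pic0.torsion KQ (FN N) n) (f : FN N) (χ : Gamma0 N →* ℂˣ),
        IsKummerPair n (x : Pic0 KQ (FN N)) f → IsKummerChar iotaK N n f χ →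
        peChar (Gamma0 N) n (κ x : Additive (Gamma0 N) →+ ZMod n) = χ) ∧
      ∀ (x : JZero N) (hx : x ∈ Pic0.torsion KQ (FN N) n)
        (hx' : complexConjugation • x ∈ Pic0.torsion KQ (FN N) n) (γ : Gamma0 N),
        (κ ⟨complexConjugation • x, hx'⟩ : Additive (Gamma0 N) →+ ZMod n) (Additive.ofMul γ)
          = - (κ ⟨x, hx⟩ : Additive (Gamma0 N) →+ ZMod n)
              (Additive.ofMul (jConjGamma0 N γ)) := by
  have : NeZero n := ⟨hn.ne'⟩
  obtain ⟨κ, hκ⟩ := exists_kummerEquiv h hn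
  refine ⟨κ, hκ, fun x hx hx' γ => ?_⟩
  obtain ⟨f, hf⟩ := exists_isKummerPair hx
  obtain ⟨χ, hχ⟩ := (h.core n hn).ex f hf.isKummerElt
  have h1 := hκ ⟨x, hx⟩ f χ hf hχ
  have h2 := hκ ⟨complexConjugation • x, hx'⟩ _ _ (isKummerPair_conj hf)
    (isKummerChar_conj N n f χ hχ)
  rw [← h1, conjChar_peChar] at h2
  have h3 := peChar_injective (Gamma0 N) n h2
  exact DFunLike.congr_fun h3 (Additive.ofMul γ)

end Fermat.Agent.S15P.Real.KummerEquivConj47
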