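/-
S15 design cell (helper29): the real place, brick (R1) "ODD-tr".

`invPE N R` is the involution of `Hom_PE(Γ₀(N), R)` induced by `γ ↦ jConj γ` (conjugation by
`diag(1, -1)`; the Prelude's `charInvolution`).  On `Hom_PE(Γ₀(N), ℂ) ≃ S₂ × S₂` (main's
`periodEquiv`, from S21) it is `(f, g) ↦ (f, -g)`, while every Hecke operator is `(T, T)`.
Hence `trace (t * invPE) = 0` for every `t` in the Hecke algebra of the lattice
`HPE N = Hom_PE(Γ₀(N), ℤ)`.
-/
import Mathlib
import Fermat.Agent.ESJ.ParHom.Cmp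

set_option autoImplicit false

open scoped MatrixGroups TensorProduct
open CongruenceSubgroup ModularCurve ModularCurve.Period

namespace Fermat.Agent.S15P.Real.OddTr29

open Fermat.Agent.ESJ.ParHom

noncomputable section

/-- The involution `φ ↦ φ ∘ jConj` on `Hom_PE(Γ₀(N), R)`. -/
def invPE (N : ℕ) (R : Type*) [CommRing R] : Module.End R (peHoms (Gamma0 N) R R) :=
  (charInvolution N R R).restrict (p := peHoms (Gamma0 N) R R) (q := peHoms (Gamma0 N) R R)
    (fun φ hφ γ hγ => by
      have htr : (((jConjGamma0 N γ : Gamma0 N) : SL(2, ℤ)) : Matrix (Fin 2) (Fin 2) ℤ).trace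
          = (((γ : Gamma0 N) : SL(2, ℤ)) : Matrix (Fin 2) (Fin 2) ℤ).trace := by
        rw [jConjGamma0_coe, jConjSL_coe, jConjMat_trace]
      exact hφ (jConjGamma0 N γ) (by rw [htr]; exact hγ))

theorem coe_invPE_apply (N : ℕ) (R : Type*) [CommRing R] (φ : peHoms (Gamma0 N) R R) :
    ((invPE N R φ : peHoms (Gamma0 N) R R) : Additive (Gamma0 N) →+ R)
      = charInvolution N R R (φ : Additive (Gamma0 N) →+ R) := rfl

theorem invPE_invPE (N : ℕ) (R : Type*) [CommRing R] (φ : peHoms (Gamma0 N) R R) :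
    invPE N R (invPE N R φ) = φ :=
  Subtype.ext (charInvolution_charInvolution N R R _)

/-- On `S₂ × S₂` the involution is `(f, g) ↦ (f, -g)`. -/
theorem invPE_periodEquiv (N : ℕ) [NeZero N] (f g : CuspForm (Gamma0 N) 2) :
    invPE N ℂ (periodEquiv N (f, g)) = periodEquiv N (f, -g) := by
  apply Subtype.ext
  rw [coe_invPE_apply, coe_periodEquiv, coe_periodEquiv, Fermat.Agent.S21.periodHomPair_apply,
    Fermat.Agent.S21.periodHomPair_apply, map_add, charInvolution_charInvolution, sub_neg_eq_add,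
    ← sub_eq_add_neg, add_comm]

theorem castPE_invPE (N : ℕ) (R : Type*) [CommRing R] (φ : HPE N) :
    castPE N R (invPE N ℤ φ) = invPE N R (castPE N R φ) := by
  apply Subtype.ext
  refine AddMonoidHom.ext fun x => ?_
  rfl

theorem baseChangePE_invPE (N : ℕ) [NeZero N] (R : Type*) [CommRing R] (x : R ⊗[ℤ] HPE N) :
    baseChangePE N R ((invPE N ℤ).baseChange R x) = invPE N R (baseChangePE N R x) := by
  induction x using TensorProduct.induction_on with
  | zero => simp
  | tmul r φ =>
    rw [LinearMap.baseChange_tmul, baseChangePE_tmul, baseChangePE_tmul, map_smul, castPE_invPE]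
  | add x y hx hy => rw [map_add, map_add, hx, hy, map_add, map_add]

/-- The involution in the `S₂ × S₂` coordinates. -/
theorem cmpS2_invPE (N : ℕ) [NeZero N] (x : ℂ ⊗[ℤ] HPE N) :
    cmpS2 N ((invPE N ℤ).baseChange ℂ x) = ((cmpS2 N x).1, -(cmpS2 N x).2) := by
  apply (periodEquiv N).injective
  have h := invPE_periodEquiv N (cmpS2 N x).1 (cmpS2 N x).2
  rw [← h]
  have e : ∀ y : ℂ ⊗[ℤ] HPE N, periodEquiv N (cmpS2 N y) = baseChangePE N ℂ y := fun y => by
    simp only [cmpS2, LinearEquiv.trans_apply, LinearEquiv.apply_symm_apply]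
  rw [e, Prod.mk.eta, e]
  exact baseChangePE_invPE N ℂ x

/-- The swap of the two factors, transported to `ℂ ⊗ H`. -/
def swapH (N : ℕ) [NeZero N] : Module.End ℂ (ℂ ⊗[ℤ] HPE N) :=
  (cmpS2 N).symm.toLinearMap.comp
    ((LinearEquiv.prodComm ℂ (CuspForm (Gamma0 N) 2) (CuspForm (Gamma0 N) 2)).toLinearMap.comp
      (cmpS2 N).toLinearMap)

theorem cmpS2_swapH (N : ℕ) [NeZero N] (x : ℂ ⊗[ℤ] HPE N) :
    cmpS2 N (swapH N x) = ((cmpS2 N x).2, (cmpS2 N x).1) := by
  rw [swapH, LinearMap.comp_apply, LinearMap.comp_apply, LinearEquiv.coe_coe, LinearEquiv.coe_coe,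
    LinearEquiv.coe_coe, LinearEquiv.apply_symm_apply]
  rfl

theorem swapH_mul_self (N : ℕ) [NeZero N] : swapH N * swapH N = 1 := by
  refine LinearMap.ext fun x => ?_
  apply (cmpS2 N).injective
  rw [Module.End.mul_apply, cmpS2_swapH, cmpS2_swapH, Module.End.one_apply]

theorem swapH_comm_hecke (N : ℕ) [NeZero N] (ℓ : Nat.Primes) :
    Commute (swapH N) ((heckePE N ℓ ℤ ℤ).baseChange ℂ) := by
  refine LinearMap.ext fun x => ?_
  apply (cmpS2 N).injective
  rw [Module.End.mul_apply, Module.End.mul_apply, cmpS2_swapH, cmpS2_hecke, cmpS2_hecke,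
    cmpS2_swapH]

theorem swapH_anticomm_invPE (N : ℕ) [NeZero N] :
    swapH N * (invPE N ℤ).baseChange ℂ = -((invPE N ℤ).baseChange ℂ * swapH N) := by
  refine LinearMap.ext fun x => ?_
  apply (cmpS2 N).injective
  rw [Module.End.mul_apply, LinearMap.neg_apply, Module.End.mul_apply, map_neg, cmpS2_swapH,
    cmpS2_invPE, cmpS2_invPE, cmpS2_swapH]
  simp

/-- **(R1), ODD-tr.** For every `t` in the Hecke algebra of `H = Hom_PE(Γ₀(N), ℤ)`,
`trace (t * ι^*) = 0`. -/
theorem trace_hecke_invPE (N : ℕ) [NeZero N] (t : Module.End ℤ (HPE N))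
    (ht : t ∈ Algebra.adjoin ℤ (Set.range fun ℓ : Nat.Primes => heckePE N ℓ ℤ ℤ)) :
    LinearMap.trace ℤ (HPE N) (t * invPE N ℤ) = 0 := by
  -- `swapH` commutes with the base change of `t`
  have hcomm : Commute (swapH N) (t.baseChange ℂ) := by
    induction ht using Algebra.adjoin_induction with
    | mem x hx =>
      obtain ⟨ℓ, rfl⟩ := hx
      exact swapH_comm_hecke N ℓ
    | algebraMap r =>
      have e : (algebraMap ℤ (Module.End ℤ (HPE N)) r).baseChange ℂ
          = (r : ℂ) • (1 : Module.End ℂ (ℂ ⊗[ℤ] HPE N)) := by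
        refine LinearMap.ext fun x => ?_
        induction x using TensorProduct.induction_on with
        | zero => simp
        | tmul a φ =>
          rw [LinearMap.baseChange_tmul, Module.algebraMap_end_apply, LinearMap.smul_apply,
            Module.End.one_apply, TensorProduct.smul_tmul', ← TensorProduct.smul_tmul]
          congr 1
          rw [zsmul_eq_mul, smul_eq_mul]
        | add x y hx hy => rw [map_add, map_add, hx, hy]
      rw [e]
      exact (Commute.one_right _).smul_right _
    | add x y _ _ hx hy =>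
      rw [LinearMap.baseChange_add]
      exact hx.add_right hy
    | mul x y _ _ hx hy =>
      rw [Module.End.mul_eq_comp, LinearMap.baseChange_comp, ← Module.End.mul_eq_comp]
      exact hx.mul_right hy
  -- the complex trace vanishes
  set X : Module.End ℂ (ℂ ⊗[ℤ] HPE N) := t.baseChange ℂ * (invPE N ℤ).baseChange ℂ with hX
  have hs : ∀ y, swapH N (swapH N y) = y := fun y => by
    have := congrArg (fun f : Module.End ℂ (ℂ ⊗[ℤ] HPE N) => f y) (swapH_mul_self N)
    simpa using this
  have hc : ∀ y, swapH N (t.baseChange ℂ y) = t.baseChange ℂ (swapH N y) := fun y => by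
    have := congrArg (fun f : Module.End ℂ (ℂ ⊗[ℤ] HPE N) => f y) hcomm.eq
    simpa using this
  have ha : ∀ y, swapH N ((invPE N ℤ).baseChange ℂ y)
      = -((invPE N ℤ).baseChange ℂ (swapH N y)) := fun y => by
    have := congrArg (fun f : Module.End ℂ (ℂ ⊗[ℤ] HPE N) => f y) (swapH_anticomm_invPE N)
    simpa using this
  have h3 : swapH N * (X * swapH N) = -X := by
    refine LinearMap.ext fun x => ?_
    rw [Module.End.mul_apply, Module.End.mul_apply, hX, Module.End.mul_apply, hc, ha, map_neg,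
      hs, LinearMap.neg_apply, Module.End.mul_apply]
  have h2 : LinearMap.trace ℂ _ (swapH N * (X * swapH N)) = LinearMap.trace ℂ _ X := by
    rw [LinearMap.trace_mul_comm, mul_assoc, swapH_mul_self, mul_one]
  rw [h3, map_neg] at h2
  have h4 : LinearMap.trace ℂ _ X = 0 := by
    have : (2 : ℂ) * LinearMap.trace ℂ _ X = 0 := by linear_combination -h2
    exact (mul_eq_zero.mp this).resolve_left two_ne_zero
  have h5 : (t * invPE N ℤ).baseChange ℂ = X := by
    rw [hX, Module.End.mul_eq_comp, LinearMap.baseChange_comp, ← Module.End.mul_eq_comp]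
  have h6 := LinearMap.trace_baseChange (t * invPE N ℤ) ℂ
  rw [h5, h4] at h6
  have h7 : ((LinearMap.trace ℤ (HPE N) (t * invPE N ℤ) : ℤ) : ℂ) = 0 := by
    rw [h6]; rfl
  exact_mod_cast h7

end

end Fermat.Agent.S15P.Real.OddTr29
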