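/-
S15 (LOC-∞, the real place), consumer of L6, concrete half (helper47): the transport
`Ψ : J₀(N)[n] ≃ ZMod n ⊗ H`, `H = Hom_PE(Γ₀(N), ℤ)`, built from the Kummer isomorphism `κ` of (R3)
and main's `baseChangePE`, intertwining

* `T_ℓ` (`ℓ ∤ N`) on `J₀(N)` with `heckePE N ℓ ℤ ℤ ⊗ ZMod n`,
* complex conjugation with `(-invPE N ℤ) ⊗ ZMod n` (helper29's `invPE`, `OddTr29`).

Also the lattice-side facts: `invPE` commutes with the Hecke algebra of `H`.
-/
import Mathlib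
import Fermat.Agent.ESJ.Jac.Main
import Fermat.Agent.S15P.Real.KummerEquivConj47
import Fermat.Agent.S15P.Real.OddTr29
import Fermat.Agent.S15P.Real.ConjCountAbs47

set_option autoImplicit false

open scoped MatrixGroups TensorProduct
open CongruenceSubgroup ModularCurve ModularCurve.Period AlgebraicCurve

noncomputable section

namespace Fermat.Agent.S15P.Real.ConjPsi47

open Fermat.Agent.S24 Fermat.Agent.ESJ.Jac Fermat.Agent.ESJ.ParHom
open Fermat.Agent.S15P.Real.OddTr29 Fermat.Agent.S15P.Real.ConjCountAbs47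

/-- The absolute Galois group of `ℚ`. -/
abbrev GQ47 : Type := AlgebraicClosure ℚ ≃ₐ[ℚ] AlgebraicClosure ℚ

/-! ### The lattice side -/

/-- `ι^*` commutes with the Hecke operators on `Hom_PE(Γ₀(N), ℂ)`. -/
theorem invPE_heckePE_complex (N : ℕ) [NeZero N] (ℓ : Nat.Primes) (ψ : peHoms (Gamma0 N) ℂ ℂ) :
    invPE N ℂ (heckePE N ℓ ℂ ℂ ψ) = heckePE N ℓ ℂ ℂ (invPE N ℂ ψ) := by
  obtain ⟨⟨f, g⟩, rfl⟩ := (periodEquiv N).surjective ψ
  rw [← periodEquiv_hecke, invPE_periodEquiv, invPE_periodEquiv, ← periodEquiv_hecke]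
  simp only [map_neg]

/-- `ι^*` commutes with the Hecke operators on `H`. -/
theorem invPE_heckePE_int (N : ℕ) [NeZero N] (ℓ : Nat.Primes) (φ : HPE N) :
    invPE N ℤ (heckePE N ℓ ℤ ℤ φ) = heckePE N ℓ ℤ ℤ (invPE N ℤ φ) := by
  apply castPE_injective N ℂ
  rw [castPE_invPE, castPE_heckePE, castPE_heckePE, castPE_invPE, invPE_heckePE_complex]

/-- The involution of `H` corresponding to complex conjugation on `J₀(N)`. -/
def cH (N : ℕ) : Module.End ℤ (HPE N) := -(invPE N ℤ)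

theorem cH_baseChange_apply (N n : ℕ) (y : ZMod n ⊗[ℤ] HPE N) :
    (cH N).baseChange (ZMod n) y = -((invPE N ℤ).baseChange (ZMod n) y) :=
  LinearMap.congr_fun (LinearMap.baseChange_neg (A := ZMod n) (invPE N ℤ)) y

theorem baseChangePE_cH (N n : ℕ) [NeZero N] (y : ZMod n ⊗[ℤ] HPE N) :
    baseChangePE N (ZMod n) ((cH N).baseChange (ZMod n) y)
      = -(invPE N (ZMod n) (baseChangePE N (ZMod n) y)) := by
  rw [cH_baseChange_apply, map_neg, baseChangePE_invPE]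

theorem cH_mul_self (N : ℕ) : cH N * cH N = 1 := by
  refine LinearMap.ext fun φ => ?_
  simp only [cH, Module.End.mul_apply, LinearMap.neg_apply, map_neg, neg_neg, invPE_invPE,
    Module.End.one_apply]

theorem commute_cH_of_mem (N : ℕ) [NeZero N] (t : Module.End ℤ (HPE N))
    (ht : t ∈ Algebra.adjoin ℤ (Set.range fun ℓ : Nat.Primes => heckePE N ℓ ℤ ℤ)) :
    Commute (cH N) t := by
  have hle : Algebra.adjoin ℤ (Set.range fun ℓ : Nat.Primes => heckePE N ℓ ℤ ℤ)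
      ≤ Subalgebra.centralizer ℤ {cH N} := by
    apply Algebra.adjoin_le
    rintro _ ⟨ℓ, rfl⟩
    rw [SetLike.mem_coe, Subalgebra.mem_centralizer_iff]
    rintro g hg
    rw [Set.mem_singleton_iff] at hg
    subst hg
    refine LinearMap.ext fun φ => ?_
    simp only [cH, Module.End.mul_apply, LinearMap.neg_apply, map_neg, invPE_heckePE_int]
  exact (Subalgebra.mem_centralizer_iff ℤ).1 (hle ht) (cH N) rfl

theorem trace_mul_cH (N : ℕ) [NeZero N] (t : Module.End ℤ (HPE N))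
    (ht : t ∈ Algebra.adjoin ℤ (Set.range fun ℓ : Nat.Primes => heckePE N ℓ ℤ ℤ)) :
    LinearMap.trace ℤ (HPE N) (t * cH N) = 0 := by
  rw [cH, mul_neg, map_neg, trace_hecke_invPE N t ht, neg_zero]

/-! ### The transport -/

/-- The identity on underlying homomorphisms. -/
def toR (N n : ℕ) : peHoms (Gamma0 N) ℤ (ZMod n) ≃+ peHoms (Gamma0 N) (ZMod n) (ZMod n) where
  toFun φ := ⟨φ.1, φ.2⟩
  invFun φ := ⟨φ.1, φ.2⟩
  left_inv _ := rfl
  right_inv _ := rfl
  map_add' _ _ := rfl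

theorem mem_torsion_iff {N : ℕ} [NeZero N] {n : ℕ} {x : JZero N} :
    x ∈ Pic0.torsion KQ (FN N) n ↔ n • x = 0 := by
  rw [Pic0.mem_torsion, natCast_zsmul]

/-- The Kummer isomorphism with its Hecke and conjugation clauses, in tensor form. -/
theorem exists_psiEquiv (N : ℕ) [NeZero N] {n : ℕ} (hn : 0 < n) :
    ∃ Ψ : Pic0.torsion KQ (FN N) n ≃+ ZMod n ⊗[ℤ] HPE N,
      (∀ (ℓ : Nat.Primes), ¬ (ℓ : ℕ) ∣ N → ∀ (x : JZero N)
        (hx : x ∈ Pic0.torsion KQ (FN N) n)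
        (hx' : heckeOperatorBar N ℓ x ∈ Pic0.torsion KQ (FN N) n),
        Ψ ⟨heckeOperatorBar N ℓ x, hx'⟩
          = (heckePE N ℓ ℤ ℤ).baseChange (ZMod n) (Ψ ⟨x, hx⟩)) ∧
      (∀ (x : JZero N) (hx : x ∈ Pic0.torsion KQ (FN N) n)
        (hx' : complexConjugation • x ∈ Pic0.torsion KQ (FN N) n),
        Ψ ⟨complexConjugation • x, hx'⟩ = (cH N).baseChange (ZMod n) (Ψ ⟨x, hx⟩)) := by
  have : NeZero n := ⟨hn.ne'⟩
  have h := Fermat.Agent.ESJ.kummerSystem N
  obtain ⟨κ, hκ, hconj⟩ := KummerEquivConj47.exists_kummerEquiv_conj N h hn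
  have hhecke : ∀ (ℓ : Nat.Primes), ¬ (ℓ : ℕ) ∣ N → ∀ (x : JZero N)
      (hx : x ∈ Pic0.torsion KQ (FN N) n)
      (hx' : heckeOperatorBar N ℓ x ∈ Pic0.torsion KQ (FN N) n),
      κ ⟨heckeOperatorBar N ℓ x, hx'⟩ = heckePE N ℓ ℤ (ZMod n) (κ ⟨x, hx⟩) := by
    intro ℓ hℓN x hx hx'
    have : NeZero (ℓ : ℕ) := ⟨ℓ.2.ne_zero⟩
    obtain ⟨f, hf⟩ := exists_isKummerPair hx
    obtain ⟨χ, hχ⟩ := (h.core n hn).ex f hf.isKummerElt
    have h1 := hκ ⟨x, hx⟩ f χ hf hχ
    have hT := HeckeKummer.isKummerPair_heckeOperatorBar N ℓ hf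
    have hχ' := h.hecke n hn ℓ hℓN f χ
      (MonoidHom.toAdditive.symm (heckeCoh N ℓ (MonoidHom.toAdditive χ))) hf.isKummerElt hχ
      (Equiv.apply_symm_apply _ _)
    have h2 := hκ ⟨heckeOperatorBar N ℓ x, hx'⟩ _ _ hT hχ'
    apply Subtype.ext
    apply peChar_injective (Gamma0 N) n
    rw [h2, coe_heckePE_apply]
    apply MonoidHom.toAdditive.injective
    rw [Equiv.apply_symm_apply, toAdditive_peChar_heckeCoh, h1]
  refine ⟨κ.trans ((toR N n).trans (baseChangePE N (ZMod n)).symm.toAddEquiv), ?_, ?_⟩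
  · intro ℓ hℓN x hx hx'
    show (baseChangePE N (ZMod n)).symm (toR N n (κ ⟨heckeOperatorBar N ℓ x, hx'⟩))
      = (heckePE N ℓ ℤ ℤ).baseChange (ZMod n)
          ((baseChangePE N (ZMod n)).symm (toR N n (κ ⟨x, hx⟩)))
    rw [hhecke ℓ hℓN x hx hx']
    apply (baseChangePE N (ZMod n)).injective
    rw [LinearEquiv.apply_symm_apply, baseChangePE_hecke, LinearEquiv.apply_symm_apply]
    rfl
  · intro x hx hx'
    show (baseChangePE N (ZMod n)).symm (toR N n (κ ⟨complexConjugation • x, hx'⟩))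
      = (cH N).baseChange (ZMod n) ((baseChangePE N (ZMod n)).symm (toR N n (κ ⟨x, hx⟩)))
    have key : toR N n (κ ⟨complexConjugation • x, hx'⟩)
        = -(invPE N (ZMod n) (toR N n (κ ⟨x, hx⟩))) := by
      apply Subtype.ext
      refine AddMonoidHom.ext fun a => ?_
      obtain ⟨γ, rfl⟩ := Additive.ofMul.surjective a
      exact hconj x hx hx' γ
    refine (LinearEquiv.symm_apply_eq (baseChangePE N (ZMod n))).2 (key.trans ?_)
    refine ((baseChangePE_cH N n _).trans ?_).symm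
    exact congrArg (fun v => -(invPE N (ZMod n) v))
      (LinearEquiv.apply_symm_apply (baseChangePE N (ZMod n)) (toR N n (κ ⟨x, hx⟩)))

/-- **The transport of `J₀(N)[n]` to `ZMod n ⊗ H`** as a total function, with its Hecke and
conjugation clauses. -/
theorem exists_psi (N : ℕ) [NeZero N] {n : ℕ} (hn : 0 < n) :
    ∃ Ψ : JZero N → ZMod n ⊗[ℤ] HPE N, IsTransport n Ψ ∧
      (∀ ℓ : Nat.Primes, ¬ (ℓ : ℕ) ∣ N → ∀ x : JZero N, n • x = 0 →
        Ψ (heckeOperatorBar N ℓ x) = (heckePE N ℓ ℤ ℤ).baseChange (ZMod n) (Ψ x)) ∧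
      (∀ x : JZero N, n • x = 0 →
        Ψ (complexConjugation • x) = (cH N).baseChange (ZMod n) (Ψ x)) := by
  classical
  obtain ⟨Ψ₀, hT, hc⟩ := exists_psiEquiv N hn
  have hval : ∀ (x : JZero N) (hx : n • x = 0),
      (if hx : x ∈ Pic0.torsion KQ (FN N) n then Ψ₀ ⟨x, hx⟩ else 0)
        = Ψ₀ ⟨x, mem_torsion_iff.2 hx⟩ := fun x hx => dif_pos (mem_torsion_iff.2 hx)
  refine ⟨fun x => if hx : x ∈ Pic0.torsion KQ (FN N) n then Ψ₀ ⟨x, hx⟩ else 0,
    ⟨?_, ?_, ?_⟩, ?_, ?_⟩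
  · intro x y hx hy
    have hxy : n • (x + y) = 0 := by rw [nsmul_add, hx, hy, add_zero]
    simp only [hval x hx, hval y hy, hval (x + y) hxy]
    rw [← map_add]
    rfl
  · intro x y hx hy hxy
    simp only [hval x hx, hval y hy] at hxy
    exact congrArg Subtype.val (Ψ₀.injective hxy)
  · intro v
    obtain ⟨x, rfl⟩ := Ψ₀.surjective v
    exact ⟨x.1, mem_torsion_iff.1 x.2, by rw [hval x.1 (mem_torsion_iff.1 x.2)]⟩
  · intro ℓ hℓN x hx
    have hx' : n • heckeOperatorBar N ℓ x = 0 := nsmul_end_eq_zero _ hx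
    simp only [hval x hx, hval _ hx']
    exact hT ℓ hℓN x _ _
  · intro x hx
    have hx' : n • (complexConjugation • x : JZero N) = 0 := by
      rw [smul_comm, hx]
      exact smul_zero (A := JZero N) complexConjugation
    simp only [hval x hx, hval _ hx']
    exact hc x _ _

end Fermat.Agent.S15P.Real.ConjPsi47
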