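/-
S15 (LOC-∞, the real place), the consumer of L6 on `J₀(N)` (helper47).

For a non-commutative Hecke word `w` in the `T_ℓ`, `ℓ ∤ N`, acting on `J₀(N)(ℚ̄)` through
`E = FreeAlgebra.lift ℤ (heckeOperatorBar N) w`, idempotent on `J₀(N)[r^j]`, with
`#{x ∈ J[r] : E x = x} = r^(2d)`:

* `card_conj_sub_le_pow` : `#(c - 1) E (J[r^j]) ≤ r^(d j)`   (any prime `r`, any `j > 0`);
* `card_conj_sub_le_two` : `r = 2`: the `2`-torsion of `(c - 1) E (J[4])` has `≤ 2^d` elements.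

Here `c` is complex conjugation.  Hypothesis-free (main's `kummerSystem N` is used inside).
Inputs: helper29's `HalfCount29` (abstract half-count) and `OddTr29` (trace identity), and the
transport `ConjPsi47.exists_psi` ((R2), (R3)).
-/
import Mathlib
import Fermat.Agent.S15P.Real.ConjPsi47

set_option autoImplicit false

open scoped MatrixGroups TensorProduct
open CongruenceSubgroup ModularCurve ModularCurve.Period AlgebraicCurve

noncomputable section

namespace Fermat.Agent.S15P.Real.ConjCount47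

open Fermat.Agent.S24 Fermat.Agent.ESJ.Jac Fermat.Agent.ESJ.ParHom
open Fermat.Agent.S15P.Real.OddTr29 Fermat.Agent.S15P.Real.ConjCountAbs47
open Fermat.Agent.S15P.Real.ConjPsi47

/-- Complex conjugation on `J₀(N)` as an additive map. -/
def cJ (N : ℕ) [NeZero N] : JZero N →+ JZero N :=
  DistribSMul.toAddMonoidHom (JZero N) (complexConjugation : GQ47)

theorem cJ_apply (N : ℕ) [NeZero N] (x : JZero N) : cJ N x = complexConjugation • x := rfl

/-- The Hecke word on the lattice `H`. -/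
def wordH (N : ℕ) (w : FreeAlgebra ℤ Nat.Primes) : Module.End ℤ (HPE N) :=
  FreeAlgebra.lift ℤ (fun ℓ : Nat.Primes => heckePE N ℓ ℤ ℤ) w

theorem wordH_pow_mem (N : ℕ) (w : FreeAlgebra ℤ Nat.Primes) (k : ℕ) :
    wordH N w ^ k ∈ Algebra.adjoin ℤ (Set.range fun ℓ : Nat.Primes => heckePE N ℓ ℤ ℤ) :=
  pow_mem (lift_mem_adjoin _ w) k

theorem wordH_mem (N : ℕ) (w : FreeAlgebra ℤ Nat.Primes) :
    wordH N w ∈ Algebra.adjoin ℤ (Set.range fun ℓ : Nat.Primes => heckePE N ℓ ℤ ℤ) :=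
  lift_mem_adjoin _ w

/-- **L6 on `J₀(N)`, any prime `r`, any level `j`**: `#(c - 1) E (J[r^j]) ≤ r^(d j)`. -/
theorem card_conj_sub_le_pow (N : ℕ) [NeZero N] (w : FreeAlgebra ℤ Nat.Primes)
    (hw : w ∈ Algebra.adjoin ℤ (FreeAlgebra.ι ℤ '' {ℓ : Nat.Primes | ¬ (ℓ : ℕ) ∣ N}))
    (r : ℕ) (hr : r.Prime) (j : ℕ) (hj : 0 < j)
    (hE : ∀ x : JZero N, r ^ j • x = 0 →
      FreeAlgebra.lift ℤ (heckeOperatorBar N) w (FreeAlgebra.lift ℤ (heckeOperatorBar N) w x)
        = FreeAlgebra.lift ℤ (heckeOperatorBar N) w x)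
    (d : ℕ)
    (hd : Nat.card {x : JZero N // r • x = 0 ∧ FreeAlgebra.lift ℤ (heckeOperatorBar N) w x = x}
      = r ^ (2 * d)) :
    Nat.card {u : JZero N // ∃ t : JZero N, r ^ j • t = 0 ∧
        u = complexConjugation • (FreeAlgebra.lift ℤ (heckeOperatorBar N) w t)
          - FreeAlgebra.lift ℤ (heckeOperatorBar N) w t} ≤ r ^ (d * j) := by
  have : Fact r.Prime := ⟨hr⟩
  obtain ⟨Ψj, hΨj, hTj, hcj⟩ := exists_psi N (n := r ^ j) (pow_pos hr.pos j)
  obtain ⟨Ψ1, hΨ1, hT1, -⟩ := exists_psi N (n := r) hr.pos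
  exact card_conj_sub_le_of_transport r j hj (cJ N) (FreeAlgebra.lift ℤ (heckeOperatorBar N) w)
    (cH N) (wordH N w) (cH_mul_self N) (commute_cH_of_mem N _ (wordH_mem N w))
    (fun k => trace_mul_cH N _ (wordH_pow_mem N w k))
    hΨj (word_transport hΨj _ _ _ hTj w hw) hcj
    hΨ1 (word_transport hΨ1 _ _ _ hT1 w hw) hE d hd

/-- **L6 on `J₀(N)`, `r = 2`**: the `2`-torsion of `(c - 1) E (J[4])` has at most `2^d`
elements. -/
theorem card_conj_sub_le_two (N : ℕ) [NeZero N] (w : FreeAlgebra ℤ Nat.Primes)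
    (hw : w ∈ Algebra.adjoin ℤ (FreeAlgebra.ι ℤ '' {ℓ : Nat.Primes | ¬ (ℓ : ℕ) ∣ N}))
    (hE : ∀ x : JZero N, 4 • x = 0 →
      FreeAlgebra.lift ℤ (heckeOperatorBar N) w (FreeAlgebra.lift ℤ (heckeOperatorBar N) w x)
        = FreeAlgebra.lift ℤ (heckeOperatorBar N) w x)
    (d : ℕ)
    (hd : Nat.card {x : JZero N // 2 • x = 0 ∧ FreeAlgebra.lift ℤ (heckeOperatorBar N) w x = x}
      = 2 ^ (2 * d)) :
    Nat.card {u : JZero N // 2 • u = 0 ∧ ∃ t : JZero N, 4 • t = 0 ∧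
        u = complexConjugation • (FreeAlgebra.lift ℤ (heckeOperatorBar N) w t)
          - FreeAlgebra.lift ℤ (heckeOperatorBar N) w t} ≤ 2 ^ d := by
  obtain ⟨Ψ4, hΨ4, hT4, hc4⟩ := exists_psi N (n := 4) (by norm_num)
  obtain ⟨Ψ2, hΨ2, hT2, -⟩ := exists_psi N (n := 2) (by norm_num)
  exact card_conj_sub_two_le_of_transport (cJ N) (FreeAlgebra.lift ℤ (heckeOperatorBar N) w)
    (cH N) (wordH N w) (cH_mul_self N) (commute_cH_of_mem N _ (wordH_mem N w))
    (fun k => trace_mul_cH N _ (wordH_pow_mem N w k))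
    hΨ4 (word_transport hΨ4 _ _ _ hT4 w hw) hc4
    hΨ2 (word_transport hΨ2 _ _ _ hT2 w hw) hE d hd

end Fermat.Agent.S15P.Real.ConjCount47
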