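/-
S15, layer L6 (real place) — the dictionary between `J₀(N)[n]` and `H / n H`,
`H = Hom_PE(Γ₀(N), ℤ)` (interface Prop; seat helper29).

`RealDict N n`: an additive isomorphism `Θ : J₀(N)[n] ≃ ℤ/n ⊗ H` which intertwines
* the Hecke operators `T_ℓ` (`ℓ ∤ N`) with the base change of `heckePE N ℓ ℤ ℤ`, and
* complex conjugation with minus the base change of the involution `invPE N ℤ`
  (`φ ↦ φ ∘ jConj`).
-/
import Mathlib
import Fermat.Prelude.Def_GaloisRep_ComplexConjugation
import Fermat.Agent.ESJ.Interfaces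
import Fermat.Agent.ESJ.ParHom.Cmp
import Fermat.Agent.S15P.Real.OddTr29

set_option autoImplicit false

open scoped TensorProduct MatrixGroups
open CongruenceSubgroup ModularCurve AlgebraicCurve
open Fermat.Agent.ESJ Fermat.Agent.ESJ.ParHom Fermat.Agent.S15P.Real.OddTr29

namespace Fermat.Agent.S15P.Real.RealDict29

/-- The dictionary at level `n`. -/
def RealDict (N n : ℕ) [NeZero N] : Prop :=
  ∃ Θ : Pic0.torsion (AlgebraicClosure ℚ) (modularFunctionFieldBar N) n ≃+ (ZMod n ⊗[ℤ] HPE N),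
    (∀ ℓ : Nat.Primes, ¬ (ℓ : ℕ) ∣ N → ∀ (x : JZero N)
        (hx : x ∈ Pic0.torsion (AlgebraicClosure ℚ) (modularFunctionFieldBar N) n)
        (hx' : heckeOperatorBar N ℓ x ∈
          Pic0.torsion (AlgebraicClosure ℚ) (modularFunctionFieldBar N) n),
        Θ ⟨heckeOperatorBar N ℓ x, hx'⟩
          = (heckePE N ℓ ℤ ℤ).baseChange (ZMod n) (Θ ⟨x, hx⟩)) ∧
    (∀ (x : JZero N)
        (hx : x ∈ Pic0.torsion (AlgebraicClosure ℚ) (modularFunctionFieldBar N) n)
        (hx' : complexConjugation • x ∈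
          Pic0.torsion (AlgebraicClosure ℚ) (modularFunctionFieldBar N) n),
        Θ ⟨complexConjugation • x, hx'⟩
          = -((invPE N ℤ).baseChange (ZMod n) (Θ ⟨x, hx⟩)))

end Fermat.Agent.S15P.Real.RealDict29
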