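/-
S15, layer L6 (real place): the dictionary `RealDict N n` of helper29's interface
(`S15P/Real/RealDict29.lean`) is a theorem (helper47): `Θ = baseChangePE⁻¹ ∘ κ`, `κ` the Kummer
isomorphism of (R3) (`KummerEquivConj47`), Hecke clause as in main's `kummerCmp_of_kummerSystem`.
-/
import Mathlib
import Fermat.Agent.S15P.Real.RealDict29
import Fermat.Agent.S15P.Real.ConjPsi47

set_option autoImplicit false

namespace Fermat.Agent.S15P.Real.RealDict47

/-- **The real dictionary at level `n`**, hypothesis-free. -/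
theorem realDict (N n : ℕ) [NeZero N] (hn : 0 < n) :
    Fermat.Agent.S15P.Real.RealDict29.RealDict N n := by
  obtain ⟨Ψ, hT, hc⟩ := Fermat.Agent.S15P.Real.ConjPsi47.exists_psiEquiv N hn
  exact ⟨Ψ, hT, fun x hx hx' => by
    rw [hc x hx hx', Fermat.Agent.S15P.Real.ConjPsi47.cH_baseChange_apply]⟩

end Fermat.Agent.S15P.Real.RealDict47
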