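/-
S15, layer L6 (real place): the three exports of the layer on `J = JZero N` (helper47), in the
binder shapes of helper29's split (the consumers are `VSeam68.exists_V_two / exists_V_odd`
(`hL6`), row `Hlev` of the `p`-side count, and `(HG)` of the concrete descent):

* `exists_card_eq`       (L6-even) : `#E (J[r]) = r^(2d)` for some `d`;
* `card_conj_sub_le`     (L6-lev)  : `#(c - 1) F (J[r^n]) ≤ r^(d n)`;
* `card_conj_sub_two_le` (L6-two)  : the `2`-torsion of `(c - 1) F (J[4])` has `≤ 2^d` elements;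

for `E`, `F` in the subalgebra of `End (J₀(N))` generated by the `T_q`, `q ∈ S`, `q ∤ N`,
idempotent on the relevant torsion.  `c` = complex conjugation.  The statements with hypotheses
`RealDict` are the literals of the split; the `_final` versions are hypothesis-free
(`RealDict47.realDict` is a theorem, and the proofs do not use the hypotheses).
-/
import Mathlib
import Fermat.Agent.S15P.Real.ConjCount47
import Fermat.Agent.S15P.Real.RealDict47

set_option autoImplicit false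

open scoped MatrixGroups TensorProduct
open CongruenceSubgroup ModularCurve ModularCurve.Period AlgebraicCurve

noncomputable section

namespace Fermat.Agent.S15P.Real.ConjFinal47

open Fermat.Agent.ESJ.ParHom
open Fermat.Agent.S15P.Real.OddTr29 Fermat.Agent.S15P.Real.ConjCountAbs47
open Fermat.Agent.S15P.Real.ConjPsi47 Fermat.Agent.S15P.Real.ConjCount47
open Fermat.Agent.S15P.Real.RealDict29

/-- An element of the algebra generated by the `T_q`, `q ∈ S`, is a Hecke word in primes not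
dividing `N`. -/
theorem exists_word {N : ℕ} [NeZero N] (S : Set Nat.Primes) (hS : ∀ q ∈ S, ¬ (q : ℕ) ∣ N)
    (E : Module.End ℤ (JZero N)) (hE : E ∈ Algebra.adjoin ℤ (heckeOperatorBar N '' S)) :
    ∃ w : FreeAlgebra ℤ Nat.Primes,
      w ∈ Algebra.adjoin ℤ (FreeAlgebra.ι ℤ '' {ℓ : Nat.Primes | ¬ (ℓ : ℕ) ∣ N}) ∧
      FreeAlgebra.lift ℤ (heckeOperatorBar N) w = E := by
  have h1 : Algebra.adjoin ℤ (heckeOperatorBar N '' S)
      = (Algebra.adjoin ℤ (FreeAlgebra.ι ℤ '' S)).map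
          (FreeAlgebra.lift ℤ (heckeOperatorBar N)) := by
    rw [AlgHom.map_adjoin, Set.image_image]
    congr 1
    exact Set.image_congr (fun i _ => (FreeAlgebra.lift_ι_apply _ _).symm)
  rw [h1] at hE
  obtain ⟨w, hw, rfl⟩ := hE
  exact ⟨w, Algebra.adjoin_mono (Set.image_mono (fun q hq => hS q hq)) hw, rfl⟩

/-- **(L6-even)**, hypothesis-free: `#E (J[r]) = r^(2d)` for some `d`. -/
theorem exists_card_eq_final (N r : ℕ) [NeZero N] (hr : r.Prime)
    (S : Set Nat.Primes) (hS : ∀ q ∈ S, ¬ (q : ℕ) ∣ N)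
    (E : Module.End ℤ (JZero N)) (hE : E ∈ Algebra.adjoin ℤ (heckeOperatorBar N '' S))
    (hidem : ∀ x : JZero N, r • x = 0 → E (E x) = E x) :
    ∃ d : ℕ, Nat.card {g : JZero N // ∃ x : JZero N, r • x = 0 ∧ g = E x} = r ^ (2 * d) := by
  have : Fact r.Prime := ⟨hr⟩
  obtain ⟨w, hw, rfl⟩ := exists_word S hS E hE
  obtain ⟨Ψ1', hΨ1', hT1', -⟩ := exists_psi N (n := r ^ 1) (pow_pos hr.pos 1)
  obtain ⟨Ψ1, hΨ1, hT1, -⟩ := exists_psi N (n := r) hr.pos
  obtain ⟨d, hd⟩ := exists_card_fixed_eq_of_transport r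
    (FreeAlgebra.lift ℤ (heckeOperatorBar N) w) (cH N) (wordH N w) (cH_mul_self N)
    (commute_cH_of_mem N _ (wordH_mem N w)) (fun k => trace_mul_cH N _ (wordH_pow_mem N w k))
    hΨ1' (word_transport hΨ1' _ _ _ hT1' w hw) hΨ1 (word_transport hΨ1 _ _ _ hT1 w hw) hidem
  exact ⟨d, by rw [card_image_eq_card_fixed r _ hidem, hd]⟩

/-- **(L6-lev)**, hypothesis-free: `#(c - 1) F (J[r^n]) ≤ r^(d n)`. -/
theorem card_conj_sub_le_final (N r : ℕ) [NeZero N] (hr : r.Prime) (n : ℕ) (hn : 0 < n)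
    (S : Set Nat.Primes) (hS : ∀ q ∈ S, ¬ (q : ℕ) ∣ N)
    (F : Module.End ℤ (JZero N)) (hF : F ∈ Algebra.adjoin ℤ (heckeOperatorBar N '' S))
    (hidem : ∀ x : JZero N, r ^ n • x = 0 → F (F x) = F x) (d : ℕ)
    (hd : Nat.card {g : JZero N // ∃ x : JZero N, r • x = 0 ∧ g = F x} = r ^ (2 * d)) :
    Nat.card {u : JZero N // ∃ t : JZero N, r ^ n • t = 0 ∧
      u = complexConjugation • F t - F t} ≤ r ^ (d * n) := by
  obtain ⟨w, hw, rfl⟩ := exists_word S hS F hF
  have hidem1 : ∀ x : JZero N, r • x = 0 →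
      FreeAlgebra.lift ℤ (heckeOperatorBar N) w (FreeAlgebra.lift ℤ (heckeOperatorBar N) w x)
        = FreeAlgebra.lift ℤ (heckeOperatorBar N) w x := by
    intro x hx
    apply hidem
    obtain ⟨i, rfl⟩ : ∃ i, n = i + 1 := ⟨n - 1, by omega⟩
    rw [pow_succ', mul_nsmul, hx, smul_zero]
  rw [card_image_eq_card_fixed r _ hidem1] at hd
  exact card_conj_sub_le_pow N w hw r hr n hn hidem d hd

/-- **(L6-two)**, hypothesis-free: the `2`-torsion of `(c - 1) F (J[4])` has at most `2^d`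
elements. -/
theorem card_conj_sub_two_le_final (N : ℕ) [NeZero N]
    (S : Set Nat.Primes) (hS : ∀ q ∈ S, ¬ (q : ℕ) ∣ N)
    (F : Module.End ℤ (JZero N)) (hF : F ∈ Algebra.adjoin ℤ (heckeOperatorBar N '' S))
    (hidem : ∀ x : JZero N, 4 • x = 0 → F (F x) = F x) (d : ℕ)
    (hd : Nat.card {g : JZero N // ∃ x : JZero N, 2 • x = 0 ∧ g = F x} = 2 ^ (2 * d)) :
    Nat.card {u : JZero N // 2 • u = 0 ∧ ∃ t : JZero N, 4 • t = 0 ∧
      u = complexConjugation • F t - F t} ≤ 2 ^ d := by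
  obtain ⟨w, hw, rfl⟩ := exists_word S hS F hF
  have hidem1 : ∀ x : JZero N, 2 • x = 0 →
      FreeAlgebra.lift ℤ (heckeOperatorBar N) w (FreeAlgebra.lift ℤ (heckeOperatorBar N) w x)
        = FreeAlgebra.lift ℤ (heckeOperatorBar N) w x := by
    intro x hx
    apply hidem
    rw [show (4 : ℕ) = 2 * 2 from rfl, mul_nsmul, hx, smul_zero]
  rw [card_image_eq_card_fixed 2 _ hidem1] at hd
  exact card_conj_sub_le_two N w hw hidem d hd

/-! ### The literals of the split (with the dictionary as hypotheses) -/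

/-- **(L6-even)**. -/
theorem exists_card_eq (N r : ℕ) [NeZero N] (hr : r.Prime) (_hD : RealDict N r)
    (S : Set Nat.Primes) (hS : ∀ q ∈ S, ¬ (q : ℕ) ∣ N)
    (E : Module.End ℤ (JZero N)) (hE : E ∈ Algebra.adjoin ℤ (heckeOperatorBar N '' S))
    (hidem : ∀ x : JZero N, r • x = 0 → E (E x) = E x) :
    ∃ d : ℕ, Nat.card {g : JZero N // ∃ x : JZero N, r • x = 0 ∧ g = E x} = r ^ (2 * d) :=
  exists_card_eq_final N r hr S hS E hE hidem

/-- **(L6-lev)**. -/
theorem card_conj_sub_le (N r : ℕ) [NeZero N] (hr : r.Prime) (n : ℕ) (hn : 0 < n)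
    (_hD1 : RealDict N r) (_hDn : RealDict N (r ^ n))
    (S : Set Nat.Primes) (hS : ∀ q ∈ S, ¬ (q : ℕ) ∣ N)
    (F : Module.End ℤ (JZero N)) (hF : F ∈ Algebra.adjoin ℤ (heckeOperatorBar N '' S))
    (hidem : ∀ x : JZero N, r ^ n • x = 0 → F (F x) = F x) (d : ℕ)
    (hd : Nat.card {g : JZero N // ∃ x : JZero N, r • x = 0 ∧ g = F x} = r ^ (2 * d)) :
    Nat.card {u : JZero N // ∃ t : JZero N, r ^ n • t = 0 ∧
      u = complexConjugation • F t - F t} ≤ r ^ (d * n) :=
  card_conj_sub_le_final N r hr n hn S hS F hF hidem d hd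

/-- **(L6-two)**. -/
theorem card_conj_sub_two_le (N : ℕ) [NeZero N] (_hD2 : RealDict N 2) (_hD4 : RealDict N 4)
    (S : Set Nat.Primes) (hS : ∀ q ∈ S, ¬ (q : ℕ) ∣ N)
    (F : Module.End ℤ (JZero N)) (hF : F ∈ Algebra.adjoin ℤ (heckeOperatorBar N '' S))
    (hidem : ∀ x : JZero N, 4 • x = 0 → F (F x) = F x) (d : ℕ)
    (hd : Nat.card {g : JZero N // ∃ x : JZero N, 2 • x = 0 ∧ g = F x} = 2 ^ (2 * d)) :
    Nat.card {u : JZero N // 2 • u = 0 ∧ ∃ t : JZero N, 4 • t = 0 ∧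
      u = complexConjugation • F t - F t} ≤ 2 ^ d :=
  card_conj_sub_two_le_final N S hS F hF hidem d hd

/-- (L6-lev) at level `1` in the shape of `hL6` of `VSeam68.exists_V_odd`. -/
theorem card_conj_sub_le_one (N r : ℕ) [NeZero N] (hr : r.Prime)
    (S : Set Nat.Primes) (hS : ∀ q ∈ S, ¬ (q : ℕ) ∣ N)
    (F : Module.End ℤ (JZero N)) (hF : F ∈ Algebra.adjoin ℤ (heckeOperatorBar N '' S))
    (hidem : ∀ x : JZero N, r • x = 0 → F (F x) = F x) (d : ℕ)
    (hd : Nat.card {g : JZero N // ∃ x : JZero N, r • x = 0 ∧ g = F x} = r ^ (2 * d)) :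
    Nat.card {u : JZero N // ∃ t : JZero N, r • t = 0 ∧
      u = complexConjugation • F t - F t} ≤ r ^ d := by
  have h := card_conj_sub_le_final N r hr 1 one_pos S hS F hF
    (fun x hx => hidem x (by rwa [pow_one] at hx)) d hd
  simpa only [pow_one, mul_one] using h

end Fermat.Agent.S15P.Real.ConjFinal47
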