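/-
S15, layer L6 (the real place), consumer on `J₀(N)` (seat helper29).

Given the dictionary `RealDict N n` (`J₀(N)[n] ≃ ℤ/n ⊗ H`, `H = Hom_PE(Γ₀(N), ℤ)`, Hecke- and
conjugation-equivariant; `S15P/Real/RealDict29`), a Hecke word `F` on `J₀(N)` corresponds to a
Hecke word `e` on `H` (`exists_word`), and the abstract counts of `S15P/Real/HalfCount29`
(trace of `e ^ k * ι` is zero: `OddTr29.trace_hecke_invPE`) become counts on `J₀(N)`:

* `exists_card_eq`       : `#F J[r] = r ^ (2 d)` for some `d` (evenness);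
* `card_conj_sub_le`     : `#(c - 1) F J[r ^ n] ≤ r ^ (d n)`;
* `card_conj_sub_two_le` : `#((c - 1) F J[4])[2] ≤ 2 ^ d`.
-/
import Mathlib
import Fermat.Agent.S15P.Real.RealDict29
import Fermat.Agent.S15P.Real.HalfCount29

set_option autoImplicit false

open scoped TensorProduct MatrixGroups
open CongruenceSubgroup ModularCurve AlgebraicCurve
open Fermat.Agent.ESJ Fermat.Agent.ESJ.ParHom Fermat.Agent.S15P.Real.OddTr29
open Fermat.Agent.S15P.Real.RealDict29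

namespace Fermat.Agent.S15P.Real.ConjCount29

noncomputable section

/-! ### Abstract transfer along a dictionary -/

section Abstract

variable {J H : Type*} [AddCommGroup J] [AddCommGroup H] {k : ℕ}

/-- `D` on `A = J[k]` corresponds to `δ` on `H / k` under `Θ`. -/
def Inter (A : AddSubgroup J) (Θ : A ≃+ (ZMod k ⊗[ℤ] H)) (D : Module.End ℤ J)
    (δ : Module.End ℤ H) : Prop :=
  ∀ (x : J) (hx : x ∈ A) (hx' : D x ∈ A), Θ ⟨D x, hx'⟩ = δ.baseChange (ZMod k) (Θ ⟨x, hx⟩)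

theorem map_mem {A : AddSubgroup J} (hA : ∀ x : J, x ∈ A ↔ k • x = 0) (D : Module.End ℤ J)
    {x : J} (hx : x ∈ A) : D x ∈ A := by
  rw [hA] at hx ⊢
  rw [← map_nsmul, hx, map_zero]

variable {A : AddSubgroup J} {Θ : A ≃+ (ZMod k ⊗[ℤ] H)}

theorem Inter.one : Inter A Θ 1 1 := by
  intro x hx hx'
  rw [LinearMap.baseChange_one]
  rfl

theorem Inter.add {D₁ D₂ : Module.End ℤ J} {δ₁ δ₂ : Module.End ℤ H}
    (hA : ∀ x : J, x ∈ A ↔ k • x = 0) (h₁ : Inter A Θ D₁ δ₁) (h₂ : Inter A Θ D₂ δ₂) :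
    Inter A Θ (D₁ + D₂) (δ₁ + δ₂) := by
  intro x hx hx'
  have e : (⟨(D₁ + D₂) x, hx'⟩ : A)
      = ⟨D₁ x, map_mem hA D₁ hx⟩ + ⟨D₂ x, map_mem hA D₂ hx⟩ := rfl
  rw [e, map_add, h₁ x hx, h₂ x hx, LinearMap.baseChange_add, LinearMap.add_apply]

theorem Inter.neg {D : Module.End ℤ J} {δ : Module.End ℤ H}
    (hA : ∀ x : J, x ∈ A ↔ k • x = 0) (h : Inter A Θ D δ) : Inter A Θ (-D) (-δ) := by
  intro x hx hx'
  have e : (⟨(-D) x, hx'⟩ : A) = -⟨D x, map_mem hA D hx⟩ := rfl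
  rw [e, map_neg, h x hx, LinearMap.baseChange_neg, LinearMap.neg_apply]

theorem Inter.sub {D₁ D₂ : Module.End ℤ J} {δ₁ δ₂ : Module.End ℤ H}
    (hA : ∀ x : J, x ∈ A ↔ k • x = 0) (h₁ : Inter A Θ D₁ δ₁) (h₂ : Inter A Θ D₂ δ₂) :
    Inter A Θ (D₁ - D₂) (δ₁ - δ₂) := by
  rw [sub_eq_add_neg, sub_eq_add_neg]
  exact Inter.add hA h₁ (Inter.neg hA h₂)

theorem Inter.zsmul {D : Module.End ℤ J} {δ : Module.End ℤ H}
    (hA : ∀ x : J, x ∈ A ↔ k • x = 0) (a : ℤ) (h : Inter A Θ D δ) :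
    Inter A Θ (a • D) (a • δ) := by
  intro x hx hx'
  have e : (⟨(a • D) x, hx'⟩ : A) = a • ⟨D x, map_mem hA D hx⟩ := rfl
  rw [e, map_zsmul, h x hx, LinearMap.baseChange_smul, LinearMap.smul_apply]

theorem Inter.mul {D₁ D₂ : Module.End ℤ J} {δ₁ δ₂ : Module.End ℤ H}
    (hA : ∀ x : J, x ∈ A ↔ k • x = 0) (h₁ : Inter A Θ D₁ δ₁) (h₂ : Inter A Θ D₂ δ₂) :
    Inter A Θ (D₁ * D₂) (δ₁ * δ₂) := by
  intro x hx hx'
  have e := h₁ (D₂ x) (map_mem hA D₂ hx) hx'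
  rw [h₂ x hx] at e
  rw [LinearMap.baseChange_mul]
  exact e

/-- An endomorphism idempotent on `J[k]` corresponds to an idempotent modulo `k`. -/
theorem baseChange_idem {E : Module.End ℤ J} {e : Module.End ℤ H}
    (hA : ∀ x : J, x ∈ A ↔ k • x = 0) (h : Inter A Θ E e)
    (hidem : ∀ x : J, k • x = 0 → E (E x) = E x) :
    e.baseChange (ZMod k) * e.baseChange (ZMod k) = e.baseChange (ZMod k) := by
  refine LinearMap.ext fun u => ?_
  obtain ⟨⟨x, hx⟩, rfl⟩ := Θ.surjective u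
  rw [Module.End.mul_apply, ← h x hx (map_mem hA E hx),
    ← h (E x) (map_mem hA E hx) (map_mem hA E (map_mem hA E hx))]
  congr 1
  exact Subtype.ext (hidem x ((hA x).1 hx))

/-- The image of `J[k]` under `D` has as many elements as the range of `δ` modulo `k`. -/
theorem card_image_eq {D : Module.End ℤ J} {δ : Module.End ℤ H}
    (hA : ∀ x : J, x ∈ A ↔ k • x = 0) (h : Inter A Θ D δ) :
    Nat.card {g : J // ∃ x : J, k • x = 0 ∧ g = D x}
      = Nat.card (LinearMap.range (δ.baseChange (ZMod k))) := by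
  have hmem : ∀ g : {g : J // ∃ x : J, k • x = 0 ∧ g = D x}, g.1 ∈ A := by
    rintro ⟨g, x, hx, rfl⟩
    exact map_mem hA D ((hA x).2 hx)
  have hrange : ∀ g : {g : J // ∃ x : J, k • x = 0 ∧ g = D x},
      Θ ⟨g.1, hmem g⟩ ∈ LinearMap.range (δ.baseChange (ZMod k)) := by
    rintro ⟨g, x, hx, rfl⟩
    exact ⟨Θ ⟨x, (hA x).2 hx⟩, (h x _ _).symm⟩
  refine Nat.card_congr (Equiv.ofBijective
    (fun g => (⟨Θ ⟨g.1, hmem g⟩, hrange g⟩ : LinearMap.range (δ.baseChange (ZMod k))))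
    ⟨?_, ?_⟩)
  · intro g g' hgg
    have h1 := Θ.injective (congrArg Subtype.val hgg)
    exact Subtype.ext (congrArg (fun a : A => (a : J)) h1)
  · rintro ⟨u, w, rfl⟩
    obtain ⟨⟨x, hx⟩, rfl⟩ := Θ.surjective w
    exact ⟨⟨D x, x, (hA x).1 hx, rfl⟩, Subtype.ext (h x hx _)⟩

/-- The `2`-torsion of the image of `J[4]` under `D` injects into the `2`-torsion of the range of
`δ` modulo `4`. -/
theorem card_two_torsion_image_le [Finite (ZMod 4 ⊗[ℤ] H)] {A : AddSubgroup J}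
    {Θ : A ≃+ (ZMod 4 ⊗[ℤ] H)} {D : Module.End ℤ J} {δ : Module.End ℤ H}
    (hA : ∀ x : J, x ∈ A ↔ 4 • x = 0) (h : Inter A Θ D δ) :
    Nat.card {u : J // 2 • u = 0 ∧ ∃ t : J, 4 • t = 0 ∧ u = D t}
      ≤ Nat.card {u : ZMod 4 ⊗[ℤ] H // (2 : ZMod 4) • u = 0 ∧
          u ∈ LinearMap.range (δ.baseChange (ZMod 4))} := by
  have hmem : ∀ g : {u : J // 2 • u = 0 ∧ ∃ t : J, 4 • t = 0 ∧ u = D t}, g.1 ∈ A := by
    rintro ⟨g, -, x, hx, rfl⟩
    exact map_mem hA D ((hA x).2 hx)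
  have htwo : ∀ g : {u : J // 2 • u = 0 ∧ ∃ t : J, 4 • t = 0 ∧ u = D t},
      (2 : ZMod 4) • Θ ⟨g.1, hmem g⟩ = 0 := by
    intro g
    have e : (2 : ZMod 4) • Θ ⟨g.1, hmem g⟩ = (2 : ℕ) • Θ ⟨g.1, hmem g⟩ := by
      rw [← Nat.cast_smul_eq_nsmul (ZMod 4) 2 (Θ ⟨g.1, hmem g⟩), Nat.cast_ofNat]
    rw [e, ← map_nsmul]
    have e0 : (2 : ℕ) • (⟨g.1, hmem g⟩ : A) = 0 := Subtype.ext g.2.1
    rw [e0, map_zero]
  have hrange : ∀ g : {u : J // 2 • u = 0 ∧ ∃ t : J, 4 • t = 0 ∧ u = D t},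
      Θ ⟨g.1, hmem g⟩ ∈ LinearMap.range (δ.baseChange (ZMod 4)) := by
    rintro ⟨g, -, x, hx, rfl⟩
    exact ⟨Θ ⟨x, (hA x).2 hx⟩, (h x _ _).symm⟩
  refine Nat.card_le_card_of_injective
    (fun g => (⟨Θ ⟨g.1, hmem g⟩, htwo g, hrange g⟩ :
      {u : ZMod 4 ⊗[ℤ] H // (2 : ZMod 4) • u = 0 ∧
          u ∈ LinearMap.range (δ.baseChange (ZMod 4))})) ?_
  intro g g' hgg
  have h1 := Θ.injective (congrArg Subtype.val hgg)
  exact Subtype.ext (congrArg (fun a : A => (a : J)) h1)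

end Abstract

/-! ### The involution on `H` -/

theorem neg_invPE_mul_self (N : ℕ) : (-invPE N ℤ) * (-invPE N ℤ) = 1 := by
  refine LinearMap.ext fun φ => ?_
  rw [Module.End.mul_apply, LinearMap.neg_apply, LinearMap.neg_apply, map_neg, neg_neg,
    invPE_invPE, Module.End.one_apply]

theorem commute_invPE_heckePE (N : ℕ) (ℓ : Nat.Primes) :
    Commute (invPE N ℤ) (heckePE N ℓ ℤ ℤ) := by
  refine LinearMap.ext fun φ => Subtype.ext ?_
  rw [Module.End.mul_apply, Module.End.mul_apply, coe_invPE_apply, coe_heckePE_apply,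
    coe_heckePE_apply, coe_invPE_apply]
  exact (heckeCoh_charInvolution N ℓ ℤ _).symm

theorem commute_neg_invPE (N : ℕ) {t : Module.End ℤ (HPE N)}
    (ht : t ∈ Algebra.adjoin ℤ (Set.range fun ℓ : Nat.Primes => heckePE N ℓ ℤ ℤ)) :
    Commute (-invPE N ℤ) t := by
  have h : Commute (invPE N ℤ) t := by
    induction ht using Algebra.adjoin_induction with
    | mem x hx =>
      obtain ⟨ℓ, rfl⟩ := hx
      exact commute_invPE_heckePE N ℓ
    | algebraMap a => exact Algebra.commute_algebraMap_right a _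
    | add x y _ _ hx hy => exact hx.add_right hy
    | mul x y _ _ hx hy => exact hx.mul_right hy
  refine LinearMap.ext fun φ => ?_
  have h1 := congrArg (fun f : Module.End ℤ (HPE N) => f φ) h.eq
  simp only [Module.End.mul_apply] at h1
  rw [Module.End.mul_apply, Module.End.mul_apply, LinearMap.neg_apply, LinearMap.neg_apply,
    map_neg, h1]

theorem trace_pow_mul_neg_invPE (N : ℕ) [NeZero N] {e : Module.End ℤ (HPE N)}
    (he : e ∈ Algebra.adjoin ℤ (Set.range fun ℓ : Nat.Primes => heckePE N ℓ ℤ ℤ)) (i : ℕ) :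
    LinearMap.trace ℤ (HPE N) (e ^ i * (-invPE N ℤ)) = 0 := by
  have e1 : e ^ i * (-invPE N ℤ) = -(e ^ i * invPE N ℤ) := by
    refine LinearMap.ext fun φ => ?_
    rw [Module.End.mul_apply, LinearMap.neg_apply, LinearMap.neg_apply, map_neg,
      Module.End.mul_apply]
  rw [e1, map_neg, trace_hecke_invPE N _ (Subalgebra.pow_mem _ he i), neg_zero]

/-! ### Hecke words -/

theorem torsion_iff (N n : ℕ) [NeZero N] (x : JZero N) :
    x ∈ Pic0.torsion (AlgebraicClosure ℚ) (modularFunctionFieldBar N) n ↔ n • x = 0 := by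
  rw [Pic0.mem_torsion, natCast_zsmul]

/-- Complex conjugation as an endomorphism of `J₀(N)`. -/
def conjJ (N : ℕ) [NeZero N] : Module.End ℤ (JZero N) :=
  (DistribSMul.toAddMonoidHom (JZero N) complexConjugation).toIntLinearMap

theorem conjJ_apply (N : ℕ) [NeZero N] (x : JZero N) : conjJ N x = complexConjugation • x := rfl

/-- A Hecke word on `J₀(N)` (over primes not dividing `N`) corresponds to a Hecke word on `H`
under every Hecke-equivariant dictionary. -/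
theorem exists_word (N : ℕ) [NeZero N] (S : Set Nat.Primes) (hS : ∀ q ∈ S, ¬ (q : ℕ) ∣ N)
    (E : Module.End ℤ (JZero N)) (hE : E ∈ Algebra.adjoin ℤ (heckeOperatorBar N '' S)) :
    ∃ e ∈ Algebra.adjoin ℤ (Set.range fun ℓ : Nat.Primes => heckePE N ℓ ℤ ℤ),
      ∀ (n : ℕ) (Θ : Pic0.torsion (AlgebraicClosure ℚ) (modularFunctionFieldBar N) n ≃+
          (ZMod n ⊗[ℤ] HPE N)),
        (∀ ℓ : Nat.Primes, ¬ (ℓ : ℕ) ∣ N → ∀ (x : JZero N)
          (hx : x ∈ Pic0.torsion (AlgebraicClosure ℚ) (modularFunctionFieldBar N) n)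
          (hx' : heckeOperatorBar N ℓ x ∈
            Pic0.torsion (AlgebraicClosure ℚ) (modularFunctionFieldBar N) n),
          Θ ⟨heckeOperatorBar N ℓ x, hx'⟩
            = (heckePE N ℓ ℤ ℤ).baseChange (ZMod n) (Θ ⟨x, hx⟩)) →
        Inter (Pic0.torsion (AlgebraicClosure ℚ) (modularFunctionFieldBar N) n) Θ E e := by
  induction hE using Algebra.adjoin_induction with
  | mem x hx =>
    obtain ⟨q, hq, rfl⟩ := hx
    exact ⟨heckePE N q ℤ ℤ, Algebra.subset_adjoin ⟨q, rfl⟩, fun n Θ hΘ => hΘ q (hS q hq)⟩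
  | algebraMap a =>
    refine ⟨algebraMap ℤ _ a, Subalgebra.algebraMap_mem _ a, fun n Θ hΘ => ?_⟩
    rw [Algebra.algebraMap_eq_smul_one, Algebra.algebraMap_eq_smul_one]
    exact Inter.zsmul (torsion_iff N n) a Inter.one
  | add x y _ _ ihx ihy =>
    obtain ⟨e₁, he₁, h₁⟩ := ihx
    obtain ⟨e₂, he₂, h₂⟩ := ihy
    exact ⟨e₁ + e₂, Subalgebra.add_mem _ he₁ he₂,
      fun n Θ hΘ => Inter.add (torsion_iff N n) (h₁ n Θ hΘ) (h₂ n Θ hΘ)⟩
  | mul x y _ _ ihx ihy =>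
    obtain ⟨e₁, he₁, h₁⟩ := ihx
    obtain ⟨e₂, he₂, h₂⟩ := ihy
    exact ⟨e₁ * e₂, Subalgebra.mul_mem _ he₁ he₂,
      fun n Θ hΘ => Inter.mul (torsion_iff N n) (h₁ n Θ hΘ) (h₂ n Θ hΘ)⟩

/-- `HalfCount29.exists_card_range_eq` with the modulus as a variable. -/
theorem exists_card_range_eq_var {H : Type*} [AddCommGroup H] [Module.Free ℤ H]
    [Module.Finite ℤ H] (r : ℕ) [Fact r.Prime] (j : ℕ) (hj : 0 < j) (k : ℕ) (hk : k = r ^ j)
    (c e : Module.End ℤ H) (hc : c * c = 1) (hce : Commute c e)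
    (htr : ∀ i : ℕ, LinearMap.trace ℤ H (e ^ i * c) = 0)
    (he : e.baseChange (ZMod k) * e.baseChange (ZMod k) = e.baseChange (ZMod k)) :
    ∃ d : ℕ, Nat.card (LinearMap.range (e.baseChange (ZMod r))) = r ^ (2 * d) := by
  subst hk
  exact HalfCount29.exists_card_range_eq r j hj c e hc hce htr he

/-! ### The three exports -/

/-- **(L6-even)** `#F J[r] = r ^ (2 d)` for a Hecke word `E` idempotent on `J[r]`. -/
theorem exists_card_eq (N : ℕ) [NeZero N] (r : ℕ) (hr : r.Prime) (hD : RealDict N r)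
    (S : Set Nat.Primes) (hS : ∀ q ∈ S, ¬ (q : ℕ) ∣ N)
    (E : Module.End ℤ (JZero N)) (hE : E ∈ Algebra.adjoin ℤ (heckeOperatorBar N '' S))
    (hidem : ∀ x : JZero N, r • x = 0 → E (E x) = E x) :
    ∃ d : ℕ, Nat.card {g : JZero N // ∃ x : JZero N, r • x = 0 ∧ g = E x} = r ^ (2 * d) := by
  haveI : Fact r.Prime := ⟨hr⟩
  obtain ⟨Θ, hΘ, -⟩ := hD
  obtain ⟨e, he, hInt⟩ := exists_word N S hS E hE
  have hI := hInt r Θ hΘ
  have hid := baseChange_idem (torsion_iff N r) hI hidem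
  obtain ⟨d, hd⟩ := exists_card_range_eq_var r 1 one_pos r (pow_one r).symm (-invPE N ℤ) e
    (neg_invPE_mul_self N) (commute_neg_invPE N he) (trace_pow_mul_neg_invPE N he) hid
  exact ⟨d, by rw [card_image_eq (torsion_iff N r) hI, hd]⟩

/-- **(L6-lev)** `#(c - 1) F J[r ^ n] ≤ r ^ (d n)` for a Hecke word `F` idempotent on
`J[r ^ n]` with `#F J[r] = r ^ (2 d)`. -/
theorem card_conj_sub_le (N : ℕ) [NeZero N] (r : ℕ) (hr : r.Prime) (n : ℕ) (hn : 0 < n)
    (hD1 : RealDict N r) (hDn : RealDict N (r ^ n))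
    (S : Set Nat.Primes) (hS : ∀ q ∈ S, ¬ (q : ℕ) ∣ N)
    (F : Module.End ℤ (JZero N)) (hF : F ∈ Algebra.adjoin ℤ (heckeOperatorBar N '' S))
    (hidem : ∀ x : JZero N, r ^ n • x = 0 → F (F x) = F x) (d : ℕ)
    (hd : Nat.card {g : JZero N // ∃ x : JZero N, r • x = 0 ∧ g = F x} = r ^ (2 * d)) :
    Nat.card {u : JZero N // ∃ t : JZero N, r ^ n • t = 0 ∧
      u = complexConjugation • F t - F t} ≤ r ^ (d * n) := by
  haveI : Fact r.Prime := ⟨hr⟩
  obtain ⟨Θ₁, hΘ₁, -⟩ := hD1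
  obtain ⟨Θ, hΘ, hΘc⟩ := hDn
  obtain ⟨e, he, hInt⟩ := exists_word N S hS F hF
  have hI1 := hInt r Θ₁ hΘ₁
  have hI := hInt (r ^ n) Θ hΘ
  have hA := torsion_iff N (r ^ n)
  have hid := baseChange_idem hA hI hidem
  have hd' : Nat.card (LinearMap.range (e.baseChange (ZMod r))) = r ^ (2 * d) := by
    rw [← card_image_eq (torsion_iff N r) hI1, hd]
  have hIc : Inter _ Θ (conjJ N) (-invPE N ℤ) := by
    intro x hx hx'
    rw [LinearMap.baseChange_neg, LinearMap.neg_apply]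
    exact hΘc x hx hx'
  have hID : Inter _ Θ ((conjJ N - 1) * F) ((-invPE N ℤ - 1) * e) :=
    Inter.mul hA (Inter.sub hA hIc Inter.one) hI
  have hcount := HalfCount29.card_conj_range_le r n hn (-invPE N ℤ) e (neg_invPE_mul_self N)
    (commute_neg_invPE N he) (trace_pow_mul_neg_invPE N he) hid d hd'
  rw [← card_image_eq hA hID] at hcount
  exact hcount

/-- **(L6-two)** `#((c - 1) F J[4])[2] ≤ 2 ^ d` for a Hecke word `F` idempotent on `J[4]` with
`#F J[2] = 2 ^ (2 d)`. -/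
theorem card_conj_sub_two_le (N : ℕ) [NeZero N] (hD2 : RealDict N 2) (hD4 : RealDict N 4)
    (S : Set Nat.Primes) (hS : ∀ q ∈ S, ¬ (q : ℕ) ∣ N)
    (F : Module.End ℤ (JZero N)) (hF : F ∈ Algebra.adjoin ℤ (heckeOperatorBar N '' S))
    (hidem : ∀ x : JZero N, 4 • x = 0 → F (F x) = F x) (d : ℕ)
    (hd : Nat.card {g : JZero N // ∃ x : JZero N, 2 • x = 0 ∧ g = F x} = 2 ^ (2 * d)) :
    Nat.card {u : JZero N // 2 • u = 0 ∧ ∃ t : JZero N, 4 • t = 0 ∧
      u = complexConjugation • F t - F t} ≤ 2 ^ d := by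
  obtain ⟨Θ₁, hΘ₁, -⟩ := hD2
  obtain ⟨Θ, hΘ, hΘc⟩ := hD4
  obtain ⟨e, he, hInt⟩ := exists_word N S hS F hF
  have hI1 := hInt 2 Θ₁ hΘ₁
  have hI := hInt 4 Θ hΘ
  have hA := torsion_iff N 4
  have hid := baseChange_idem hA hI hidem
  have hd' : Nat.card (LinearMap.range (e.baseChange (ZMod 2))) = 2 ^ (2 * d) := by
    rw [← card_image_eq (torsion_iff N 2) hI1, hd]
  have hIc : Inter _ Θ (conjJ N) (-invPE N ℤ) := by
    intro x hx hx'
    rw [LinearMap.baseChange_neg, LinearMap.neg_apply]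
    exact hΘc x hx hx'
  have hID : Inter _ Θ ((conjJ N - 1) * F) ((-invPE N ℤ - 1) * e) :=
    Inter.mul hA (Inter.sub hA hIc Inter.one) hI
  have hcount := HalfCount29.card_conj_range_two_torsion_le (-invPE N ℤ) e (neg_invPE_mul_self N)
    (commute_neg_invPE N he) (trace_pow_mul_neg_invPE N he) hid d hd'
  haveI : Finite (ZMod 4 ⊗[ℤ] HPE N) := Module.finite_of_finite (ZMod 4)
  exact (card_two_torsion_image_le hA hID).trans hcount

end

end Fermat.Agent.S15P.Real.ConjCount29
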