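/-
S15 / (LOC-∞) / (R2), Mathlib-only leaf (AN) — helper3.

The reflection `ρ w = -conj w` of the complex plane (it preserves the upper half plane) and the
anti-holomorphic involution `h ↦ conj ∘ h ∘ ρ` of functions: it preserves analyticity and
meromorphic normal form.
-/
import Mathlib

set_option autoImplicit false

namespace Fermat.Agent.S15P.Real.ConjNF3

open Filter Topology

/-- The reflection `w ↦ -conj w` is continuous. -/
theorem continuous_neg_conj : Continuous (fun w : ℂ => -(starRingEnd ℂ w)) :=
  Complex.continuous_conj.neg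

/-- The reflection `w ↦ -conj w` is an involution. -/
theorem neg_conj_neg_conj (w : ℂ) : -(starRingEnd ℂ (-(starRingEnd ℂ w))) = w := by
  simp

/-- The reflection `w ↦ -conj w` is injective. -/
theorem neg_conj_injective : Function.Injective (fun w : ℂ => -(starRingEnd ℂ w)) := by
  intro a b hab
  have h := congrArg (fun w : ℂ => -(starRingEnd ℂ w)) hab
  simpa using h

/-- (AN') -/
theorem tendsto_neg_conj_nhdsNE (z : ℂ) :
    Tendsto (fun w : ℂ => -(starRingEnd ℂ w)) (𝓝[≠] z) (𝓝[≠] (-(starRingEnd ℂ z))) := by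
  refine tendsto_nhdsWithin_of_tendsto_nhds_of_eventually_within _
    ((continuous_neg_conj.tendsto z).mono_left nhdsWithin_le_nhds) ?_
  filter_upwards [self_mem_nhdsWithin] with w hw
  exact fun h => hw (neg_conj_injective h)

/-- `w ↦ conj (g (-conj w))` is differentiable at `w` when `g` is differentiable at `-conj w`. -/
theorem differentiableAt_conj_refl {g : ℂ → ℂ} {w : ℂ}
    (hg : DifferentiableAt ℂ g (-(starRingEnd ℂ w))) :
    DifferentiableAt ℂ (fun u => starRingEnd ℂ (g (-(starRingEnd ℂ u)))) w := by
  have h1 : DifferentiableAt ℂ (fun u : ℂ => g (-u)) (starRingEnd ℂ w) :=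
    DifferentiableAt.comp (starRingEnd ℂ w) hg differentiable_neg.differentiableAt
  have h2 := (differentiableAt_conj_conj_iff (f := fun u : ℂ => g (-u)) (x := w)).2 h1
  exact h2

/-- `w ↦ conj (g (-conj w))` is analytic at `z` when `g` is analytic at `-conj z`. -/
theorem analyticAt_conj_refl {g : ℂ → ℂ} {z : ℂ} (hg : AnalyticAt ℂ g (-(starRingEnd ℂ z))) :
    AnalyticAt ℂ (fun u => starRingEnd ℂ (g (-(starRingEnd ℂ u)))) z := by
  rw [Complex.analyticAt_iff_eventually_differentiableAt] at hg ⊢
  have h := (continuous_neg_conj.tendsto z).eventually hg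
  filter_upwards [h] with w hw
  exact differentiableAt_conj_refl hw

/-- (AN), pointwise: the reflection preserves meromorphic normal form at a point. -/
theorem meromorphicNFAt_conj_refl {h : ℂ → ℂ} {z : ℂ}
    (hh : MeromorphicNFAt h (-(starRingEnd ℂ z))) :
    MeromorphicNFAt (fun w => starRingEnd ℂ (h (-(starRingEnd ℂ w)))) z := by
  rcases hh with h0 | ⟨n, g, hg, hgx, hfg⟩
  · left
    have h := (continuous_neg_conj.tendsto z).eventually h0
    filter_upwards [h] with w hw
    simp only [Pi.zero_apply] at hw ⊢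
    rw [hw, map_zero]
  · right
    refine ⟨n, fun w => (-1 : ℂ) ^ n * starRingEnd ℂ (g (-(starRingEnd ℂ w))),
      (analyticAt_const.mul (analyticAt_conj_refl hg)), ?_, ?_⟩
    · refine mul_ne_zero (zpow_ne_zero _ (by norm_num)) ?_
      rw [Ne, map_eq_zero]
      exact hgx
    · have h := (continuous_neg_conj.tendsto z).eventually hfg
      filter_upwards [h] with w hw
      simp only [Pi.smul_apply', Pi.pow_apply, smul_eq_mul] at hw ⊢
      rw [hw, map_mul, map_zpow₀]
      have e : starRingEnd ℂ (-(starRingEnd ℂ w) - -(starRingEnd ℂ z)) = -(w - z) := by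
        simp only [map_sub, map_neg, Complex.conj_conj]
        ring
      rw [e, neg_eq_neg_one_mul (w - z), mul_zpow]
      ring

/-- (AN) reflection `z ↦ −conj z` preserves meromorphic normal form. -/
theorem meromorphicNFOn_conj_refl {h : ℂ → ℂ} {B : Set ℂ}
    (hB : ∀ z ∈ B, -(starRingEnd ℂ z) ∈ B) (hh : MeromorphicNFOn h B) :
    MeromorphicNFOn (fun z => starRingEnd ℂ (h (-(starRingEnd ℂ z)))) B :=
  fun z hz => meromorphicNFAt_conj_refl (hh (hB z hz))

end Fermat.Agent.S15P.Real.ConjNF3
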