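/-
S15 (LOC-∞, the real place), brick (R2), part 1 (helper47): reflection in the imaginary axis.

`refl z = -conj z` preserves the upper half plane `U`; `conjRefl h = conj ∘ h ∘ refl` sends
meromorphic functions in normal form to meromorphic functions in normal form, `n`-th roots to
`n`-th roots, and a multiplier `χ` of `Γ₀(N)` to `conjChar N χ = conj ∘ χ ∘ jConj`.
-/
import Mathlib
import Fermat.Agent.ESJ.Jac.Defs
import Fermat.Prelude.Def_ModularCurve_PeriodHomPair

set_option autoImplicit false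

open Complex Filter Topology Set
open scoped MatrixGroups ComplexConjugate
open CongruenceSubgroup ModularCurve ModularCurve.Period

noncomputable section

namespace Fermat.Agent.S15P.Real.ReflMer47

open Fermat.Agent.ESJ.Jac Fermat.Agent.Lib.Analysis.NthRoot

/-- Reflection in the imaginary axis. -/
def refl (z : ℂ) : ℂ := -(conj z)

theorem refl_refl (z : ℂ) : refl (refl z) = z := by
  simp [refl]

theorem refl_im (z : ℂ) : (refl z).im = z.im := by
  simp [refl]

theorem refl_re (z : ℂ) : (refl z).re = -z.re := by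
  simp [refl]

theorem refl_mem_U {z : ℂ} (hz : z ∈ U) : refl z ∈ U := by
  show 0 < (refl z).im
  rw [refl_im]
  exact hz

theorem continuous_refl : Continuous refl :=
  Complex.continuous_conj.neg

theorem refl_injective : Function.Injective refl :=
  Function.LeftInverse.injective refl_refl

theorem tendsto_refl_nhds (z : ℂ) : Tendsto refl (𝓝 z) (𝓝 (refl z)) :=
  continuous_refl.continuousAt

theorem tendsto_refl_nhdsNE (z : ℂ) : Tendsto refl (𝓝[≠] z) (𝓝[≠] (refl z)) := by
  apply tendsto_nhdsWithin_of_tendsto_nhds_of_eventually_within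
  · exact (tendsto_refl_nhds z).mono_left nhdsWithin_le_nhds
  · filter_upwards [self_mem_nhdsWithin] with y hy
    exact fun h => hy (refl_injective h)

/-- `conj ∘ h ∘ refl`. -/
def conjRefl (h : ℂ → ℂ) : ℂ → ℂ := fun z => conj (h (refl z))

theorem conjRefl_apply (h : ℂ → ℂ) (z : ℂ) : conjRefl h z = conj (h (refl z)) := rfl

theorem conjRefl_conjRefl (h : ℂ → ℂ) : conjRefl (conjRefl h) = h := by
  funext z
  simp [conjRefl, refl_refl]

theorem differentiableAt_conjRefl {g : ℂ → ℂ} {z : ℂ} (hg : DifferentiableAt ℂ g (refl z)) :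
    DifferentiableAt ℂ (conjRefl g) z := by
  have h1 : DifferentiableAt ℂ (fun w : ℂ => g (-w)) (conj z) := by
    have h2 : DifferentiableAt ℂ (fun w : ℂ => -w) (conj z) := differentiableAt_id.neg
    exact DifferentiableAt.comp (conj z) (g := g) (f := fun w : ℂ => -w) hg h2
  have h3 := (differentiableAt_conj_conj_iff (f := fun w : ℂ => g (-w)) (x := z)).2 h1
  exact h3

theorem analyticAt_conjRefl {g : ℂ → ℂ} {z : ℂ} (hg : AnalyticAt ℂ g (refl z)) :
    AnalyticAt ℂ (conjRefl g) z := by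
  have h1 : ∀ᶠ y in 𝓝 z, AnalyticAt ℂ g (refl y) :=
    (tendsto_refl_nhds z).eventually hg.eventually_analyticAt
  have h2 : ∀ᶠ y in 𝓝 z, DifferentiableAt ℂ (conjRefl g) y :=
    h1.mono fun y hy => differentiableAt_conjRefl hy.differentiableAt
  exact (analyticAt_iff_eventually_differentiableAt).2 h2

theorem meromorphicNFAt_conjRefl {h : ℂ → ℂ} {x : ℂ} (hh : MeromorphicNFAt h (refl x)) :
    MeromorphicNFAt (conjRefl h) x := by
  rcases hh with h0 | ⟨n, g, hg, hg0, hfg⟩
  · left
    have h1 := (tendsto_refl_nhds x).eventually h0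
    filter_upwards [h1] with y hy
    simp only [conjRefl, Pi.zero_apply] at hy ⊢
    rw [hy, map_zero]
  · right
    refine ⟨n, fun y => (-1 : ℂ) ^ n * conjRefl g y, ?_, ?_, ?_⟩
    · exact analyticAt_const.mul (analyticAt_conjRefl hg)
    · simp only [conjRefl]
      refine mul_ne_zero (zpow_ne_zero _ (by norm_num)) ?_
      exact (map_ne_zero (starRingEnd ℂ)).2 hg0
    · have h1 := (tendsto_refl_nhds x).eventually hfg
      filter_upwards [h1] with y hy
      simp only [conjRefl, Pi.smul_apply', Pi.pow_apply, smul_eq_mul] at hy ⊢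
      rw [hy, map_mul, map_zpow₀]
      have e : conj (refl y - refl x) = (-1 : ℂ) * (y - x) := by
        simp only [refl, map_sub, map_neg, Complex.conj_conj]
        ring
      rw [e, mul_zpow]
      ring

theorem IsRootOn.conjRefl {n : ℕ} {F h : ℂ → ℂ} (hh : IsRootOn n F h U) :
    IsRootOn n (conjRefl F) (conjRefl h) U := by
  refine ⟨fun z hz => meromorphicNFAt_conjRefl (hh.1 (refl_mem_U hz)), fun z hz => ?_⟩
  have h1 := (tendsto_refl_nhdsNE z).eventually (hh.2 (refl z) (refl_mem_U hz))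
  filter_upwards [h1] with y hy
  simp only [ReflMer47.conjRefl, Pi.pow_apply] at hy ⊢
  rw [← hy, map_pow]

/-- `jConj` corresponds to the reflection. -/
theorem mob_jConjSL (g : SL(2, ℤ)) (z : ℂ) : mob (jConjSL g) (refl z) = refl (mob g z) := by
  simp only [mob, refl, jConjSL_coe, jConjMat_apply_zero_zero, jConjMat_apply_zero_one,
    jConjMat_apply_one_zero, jConjMat_apply_one_one, Int.cast_neg, map_div₀, map_add, map_mul,
    map_intCast]
  have e1 : ((g 0 0 : ℤ) : ℂ) * -(conj z) + -((g 0 1 : ℤ) : ℂ)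
      = -(((g 0 0 : ℤ) : ℂ) * conj z + ((g 0 1 : ℤ) : ℂ)) := by ring
  have e2 : -((g 1 0 : ℤ) : ℂ) * -(conj z) + ((g 1 1 : ℤ) : ℂ)
      = ((g 1 0 : ℤ) : ℂ) * conj z + ((g 1 1 : ℤ) : ℂ) := by ring
  rw [e1, e2, neg_div]

/-- The conjugate character `γ ↦ conj (χ (jConj γ))`. -/
def conjChar (N : ℕ) (χ : Gamma0 N →* ℂˣ) : Gamma0 N →* ℂˣ :=
  (Units.map (starRingEnd ℂ).toMonoidHom).comp (χ.comp (jConjGamma0 N))

theorem conjChar_apply (N : ℕ) (χ : Gamma0 N →* ℂˣ) (γ : Gamma0 N) :
    ((conjChar N χ γ : ℂˣ) : ℂ) = conj ((χ (jConjGamma0 N γ) : ℂˣ) : ℂ) := rfl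

theorem hasMultiplier_conjRefl {N : ℕ} {h : ℂ → ℂ} {χ : Gamma0 N →* ℂˣ}
    (hh : HasMultiplier (Gamma0 N) h χ) :
    HasMultiplier (Gamma0 N) (conjRefl h) (conjChar N χ) := by
  intro γ z hz
  have h1 := hh (jConjGamma0 N γ) (refl z) (refl_mem_U hz)
  rw [jConjGamma0_coe, mob_jConjSL] at h1
  simp only [conjRefl]
  rw [h1, map_mul, conjChar_apply]

end Fermat.Agent.S15P.Real.ReflMer47
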