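/-
S15 (LOC-∞, the real place), brick (R2) (helper47): complex conjugation on Kummer characters.

If `χ` is the Kummer character of exponent `n` of `f ∈ F_N = ℚ̄(X₀(N))`, then
`conjChar N χ = conj ∘ χ ∘ jConj` is the Kummer character of `c • f`, `c` = complex conjugation
acting on the coefficients of the `q`-expansion.

Proof: for a representative `f = fm P / fm Q`, `c • f = fm P^c / fm Q^c`, and
`ev P^c (τ) = conj (ev P (-conj τ))` (equal `q`-expansions; `q(-conj τ) = conj q(τ)`).  So the
meromorphic function of `c • f` is `conjRefl` of that of `f`, and `conjRefl` of an `n`-th root with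
multiplier `χ` is an `n`-th root with multiplier `conjChar N χ` (`ReflMer47`).
-/
import Mathlib
import Fermat.Agent.ESJ.Jac.HeckeMer
import Fermat.Agent.S15P.Real.ReflMer47

set_option autoImplicit false

open UpperHalfPlane Filter Topology
open scoped MatrixGroups ComplexConjugate
open CongruenceSubgroup ModularCurve ModularCurve.Period

noncomputable section

namespace Fermat.Agent.S15P.Real.KummerConj47

open Fermat.Agent.S24 Fermat.Agent.S24.QExp Fermat.Agent.ESJ.Jac Fermat.Agent.ESJ.Jac.HeckeMer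
open Fermat.Agent.Lib.Analysis.NthRoot Fermat.Agent.S15P.Real.ReflMer47

/-- The reflection on `ℍ`. -/
def rho (τ : ℍ) : ℍ := ⟨ReflMer47.refl (τ : ℂ), refl_mem_U (coe_mem_U τ)⟩

theorem coe_rho (τ : ℍ) : ((rho τ : ℍ) : ℂ) = ReflMer47.refl (τ : ℂ) := rfl

theorem ofComplex_refl {z : ℂ} (hz : z ∈ U) : ofComplex (ReflMer47.refl z) = rho ⟨z, hz⟩ :=
  ofComplex_apply_of_im_pos (refl_mem_U hz)

theorem conj_qParam_refl (h : ℝ) (z : ℂ) :
    conj (Function.Periodic.qParam h (ReflMer47.refl z)) = Function.Periodic.qParam h z := by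
  unfold Function.Periodic.qParam ReflMer47.refl
  rw [← Complex.exp_conj]
  congr 1
  simp only [map_div₀, map_mul, map_neg, Complex.conj_conj, Complex.conj_ofReal, Complex.conj_I,
    map_ofNat]
  ring

/-- The `q`-expansion of `τ ↦ conj (G (-conj τ))` is the conjugate of that of `G`. -/
theorem hasQExp_conjRefl {h : ℕ} {G : ℍ → ℂ} {L : LaurentSeries ℂ} (hG : HasQExp h G L) :
    HasQExp h (fun τ => conj (G (rho τ))) (coeffMap (starRingEnd ℂ) L) := by
  intro τ
  have h2 := (hG (rho τ)).map (starRingEnd ℂ) Complex.continuous_conj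
  convert h2 using 1
  funext n
  simp only [Function.comp_apply, coeffMap_coeff, map_mul, map_zpow₀]
  rw [coe_rho, conj_qParam_refl]

/-- Complex conjugation of `ℚ̄` as a ring homomorphism. -/
def cK : KQ →+* KQ := ((complexConjugation : KQ ≃ₐ[ℚ] KQ) : KQ →+* KQ)

theorem iotaK_cK (a : KQ) : iotaK (cK a) = conj (iotaK a) :=
  complexEmbedding_complexConjugation a

/-- Complex conjugation of the coefficients of `F_N`. -/
def sig (N : ℕ) [NeZero N] : FN N ≃+* FN N :=
  arithmeticRingAut (modularFunctionFieldFull N) complexConjugation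

theorem sig_jFormal (N : ℕ) [NeZero N] (d : Dv N) : sig N (jFormal N d) = jFormal N d := by
  have : NeZero d.1 := d.neZero
  apply Subtype.ext
  show coeffMap ((complexConjugation : KQ ≃ₐ[ℚ] KQ) : KQ →+* KQ)
    (coeffEmb KQ (qExpand ℚ d.1 jq)) = coeffEmb KQ (qExpand ℚ d.1 jq)
  exact coeffMap_coeffEmb _ _

set_option synthInstance.maxHeartbeats 400000 in
theorem sig_fm (N : ℕ) [NeZero N] (P : MvPolynomial (Dv N) KQ) :
    sig N (fm N P) = fm N (MvPolynomial.map cK P) := by
  have hC : ∀ a : KQ, fm N (MvPolynomial.C a) = algebraMap KQ (FN N) a :=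
    fun a => MvPolynomial.aeval_C _ a
  have hX : ∀ d : Dv N, fm N (MvPolynomial.X d) = jFormal N d :=
    fun d => MvPolynomial.aeval_X _ d
  induction P using MvPolynomial.induction_on with
  | C a =>
    rw [MvPolynomial.map_C, hC, hC]
    exact arithmeticRingAut_algebraMap (modularFunctionFieldFull N) complexConjugation a
  | add p q hp hq =>
    rw [map_add, map_add, map_add, map_add, hp, hq]
  | mul_X p d hp =>
    rw [map_mul, map_mul, map_mul, map_mul, hp, MvPolynomial.map_X, hX, sig_jFormal]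

theorem isRep_sig {N : ℕ} [NeZero N] {f : FN N} {P Q : MvPolynomial (Dv N) KQ}
    (h : IsRep N f P Q) :
    IsRep N (sig N f) (MvPolynomial.map cK P) (MvPolynomial.map cK Q) := by
  refine ⟨?_, ?_⟩
  · rw [← sig_fm]
    exact (map_ne_zero_iff (sig N) (sig N).injective).2 h.1
  · rw [← sig_fm, ← sig_fm, ← map_div₀, ← h.2]

/-- `ev P^c (τ) = conj (ev P (-conj τ))`. -/
theorem ev_map_cK (N : ℕ) [NeZero N] (P : MvPolynomial (Dv N) KQ) (τ : ℍ) :
    ev N (MvPolynomial.map cK P) τ = conj (ev N P (rho τ)) := by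
  have h1 := hasQExp_ev N (MvPolynomial.map cK P)
  have h2 := hasQExp_conjRefl (hasQExp_ev N P)
  have e : coeffMap iotaK ((fm N (MvPolynomial.map cK P) : FN N) : LaurentSeries KQ)
      = coeffMap (starRingEnd ℂ) (coeffMap iotaK ((fm N P : FN N) : LaurentSeries KQ)) := by
    rw [← sig_fm]
    show coeffMap iotaK (coeffMap ((complexConjugation : KQ ≃ₐ[ℚ] KQ) : KQ →+* KQ)
      ((fm N P : FN N) : LaurentSeries KQ)) = _
    rw [coeffMap_coeffMap, coeffMap_coeffMap]
    exact coeffMap_congr (RingHom.ext fun a => iotaK_cK a) _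
  rw [e] at h1
  exact (h1 τ).unique (h2 τ)

/-- The meromorphic function of `c • f` is the reflection-conjugate of that of `f`, off a discrete
subset of `U`. -/
theorem merK_sig_eventuallyEq (N : ℕ) [NeZero N] (f : FN N) :
    merK iotaK N (sig N f) =ᶠ[codiscreteWithin U] conjRefl (merK iotaK N f) := by
  obtain ⟨P, Q, hy, hm⟩ := merK_eq N f
  obtain ⟨P', Q', hY, hM⟩ := merK_eq N (sig N f)
  have hy' := isRep_sig hy
  have e0 : ∀ᶠ z in codiscreteWithin U, z ∈ U := Filter.self_mem_codiscreteWithin U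
  have e1 := eventually_ev_comp_ne_zero N hY.1 id 1 one_ne_zero (fun z _ => hasDerivAt_id z)
    (fun z hz => hz)
  have e2 := eventually_ev_comp_ne_zero N hy'.1 id 1 one_ne_zero (fun z _ => hasDerivAt_id z)
    (fun z hz => hz)
  -- the cross-multiplied identity
  have hcross : fm N (P' * MvPolynomial.map cK Q - MvPolynomial.map cK P * Q') = 0 := by
    have h3 : fm N P' / fm N Q' = fm N (MvPolynomial.map cK P) / fm N (MvPolynomial.map cK Q) := by
      rw [← hY.2, ← hy'.2]
    rw [div_eq_div_iff hY.1 hy'.1] at h3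
    rw [map_sub, map_mul, map_mul, h3, sub_self]
  have hev := (ev_eq_zero_iff N _).2 hcross
  filter_upwards [e0, e1, e2] with z hzU h1 h2
  have hτ : ofComplex z = ⟨z, hzU⟩ := ofComplex_apply_of_im_pos hzU
  simp only [id] at h1 h2
  rw [hM, conjRefl_apply, hm]
  beta_reduce
  rw [ofComplex_refl hzU, map_div₀, ← ev_map_cK, ← ev_map_cK]
  rw [hτ] at h1 h2 ⊢
  rw [div_eq_div_iff h1 h2]
  have h4 := congrFun hev ⟨z, hzU⟩
  rw [map_sub, map_mul, map_mul] at h4
  exact sub_eq_zero.1 h4

/-- **(R2)** Complex conjugation on Kummer characters: if `χ` is the Kummer character of `f`, then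
`conj ∘ χ ∘ jConj` is the Kummer character of `c • f`. -/
theorem isKummerChar_conj (N n : ℕ) [NeZero N] (f : FN N) (χ : Gamma0 N →* ℂˣ)
    (h : IsKummerChar iotaK N n f χ) :
    IsKummerChar iotaK N n
      (arithmeticRingAut (modularFunctionFieldFull N) complexConjugation f) (conjChar N χ) := by
  obtain ⟨h0, hroot, hmult⟩ := h
  refine ⟨conjRefl h0, (IsRootOn.conjRefl hroot).congr (fun z hz => ?_),
    hasMultiplier_conjRefl hmult⟩
  exact (eventuallyEq_nhdsNE_of_codiscreteWithin_U (merK_sig_eventuallyEq N f) hz).symm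

end Fermat.Agent.S15P.Real.KummerConj47
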