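/-
S15 (seat helper29): lifting a projector from `J[r]` to `J[r ^ n]`.

If an endomorphism `E` of an abelian group `J` is idempotent on `J[r]`, then
`F = 1 - (1 - E ^ n) ^ n` (a polynomial in `E`) agrees with `E` on `J[r]` and is idempotent
on `J[r ^ n]`.  Mathlib only.
-/
import Mathlib

set_option autoImplicit false

open Polynomial

namespace Fermat.Agent.S15P.Real.LiftTors29

/-- The lifting polynomial `1 - (1 - X ^ n) ^ n`. -/
noncomputable def liftPoly (n : ℕ) : ℤ[X] := 1 - (1 - X ^ n) ^ n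

/-- `(X - X²) ^ n` divides `P² - P`. -/
theorem pow_dvd_liftPoly_sq_sub (n : ℕ) :
    ((X : ℤ[X]) - X ^ 2) ^ n ∣ liftPoly n * liftPoly n - liftPoly n := by
  rw [← Ideal.mem_span_singleton, ← Ideal.Quotient.eq_zero_iff_mem]
  have h0 : ((Ideal.Quotient.mk (Ideal.span {((X : ℤ[X]) - X ^ 2) ^ n}) X)
      - (Ideal.Quotient.mk (Ideal.span {((X : ℤ[X]) - X ^ 2) ^ n}) X) ^ 2) ^ n = 0 := by
    rw [← map_pow, ← map_sub, ← map_pow, Ideal.Quotient.eq_zero_iff_mem]
    exact Ideal.mem_span_singleton_self _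
  have h := (isIdempotentElem_one_sub_one_sub_pow_pow
    (Ideal.Quotient.mk (Ideal.span {((X : ℤ[X]) - X ^ 2) ^ n}) X) n h0).eq
  rw [liftPoly]
  simp only [map_sub, map_mul, map_one, map_pow]
  rw [h, sub_self]

/-- `X - X²` divides `P - X` (for `n ≥ 1`). -/
theorem dvd_liftPoly_sub (n : ℕ) (hn : 0 < n) :
    ((X : ℤ[X]) - X ^ 2) ∣ liftPoly n - X := by
  rw [← Ideal.mem_span_singleton, ← Ideal.Quotient.eq_zero_iff_mem]
  obtain ⟨m, rfl⟩ := Nat.exists_eq_succ_of_ne_zero hn.ne'
  have h0 : IsIdempotentElem (Ideal.Quotient.mk (Ideal.span {(X : ℤ[X]) - X ^ 2}) X) := by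
    have h1 : (Ideal.Quotient.mk (Ideal.span {(X : ℤ[X]) - X ^ 2})) (X - X ^ 2) = 0 :=
      Ideal.Quotient.eq_zero_iff_mem.mpr (Ideal.mem_span_singleton_self _)
    rw [map_sub, map_pow, sub_eq_zero] at h1
    show _ * _ = _
    rw [← pow_two]
    exact h1.symm
  rw [liftPoly]
  simp only [map_sub, map_one, map_pow]
  rw [h0.pow_succ_eq, h0.one_sub.pow_succ_eq, sub_sub_cancel, sub_self]

variable {J : Type*} [AddCommGroup J]

/-- Powers of `E - E²` kill `J[r ^ m]` when `E` is idempotent on `J[r]`. -/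
theorem pow_sub_sq_apply_eq_zero (r : ℕ) (E : Module.End ℤ J)
    (hidem : ∀ x : J, r • x = 0 → E (E x) = E x) (m : ℕ) :
    ∀ x : J, r ^ m • x = 0 → ((E - E ^ 2) ^ m) x = 0 := by
  induction m with
  | zero =>
    intro x hx
    rw [pow_zero, one_smul] at hx
    rw [hx, map_zero]
  | succ m ih =>
    intro x hx
    rw [pow_succ, Module.End.mul_apply]
    apply ih
    have h1 : r • (r ^ m • x) = 0 := by
      rw [smul_smul, ← pow_succ']
      exact hx
    have h2 := hidem _ h1
    rw [← map_nsmul, LinearMap.sub_apply, pow_two, Module.End.mul_apply, h2, sub_self]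

/-- **Lifting a projector from `J[r]` to `J[r ^ n]`**: `F = 1 - (1 - E ^ n) ^ n`. -/
theorem exists_lift_torsion (r n : ℕ) (hn : 0 < n) (E : Module.End ℤ J)
    (hidem : ∀ x : J, r • x = 0 → E (E x) = E x) :
    ∃ F ∈ Algebra.adjoin ℤ ({E} : Set (Module.End ℤ J)),
      (∀ x : J, r • x = 0 → F x = E x) ∧ (∀ x : J, r ^ n • x = 0 → F (F x) = F x) := by
  refine ⟨aeval E (liftPoly n), aeval_mem_adjoin_singleton ℤ E, ?_, ?_⟩
  · intro x hx
    obtain ⟨q, hq⟩ := dvd_liftPoly_sub n hn
    have h1 : aeval E (liftPoly n) - E = aeval E q * (E - E ^ 2) := by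
      have hq' : liftPoly n - X = q * ((X : ℤ[X]) - X ^ 2) := by
        rw [hq, mul_comm]
      have h2 := congrArg (aeval E) hq'
      rw [map_mul, map_sub, map_sub, map_pow, aeval_X] at h2
      exact h2
    have h3 := congrArg (fun f : Module.End ℤ J => f x) h1
    simp only [LinearMap.sub_apply, Module.End.mul_apply, pow_two] at h3
    rw [hidem x hx, sub_self, map_zero, sub_eq_zero] at h3
    exact h3
  · intro x hx
    obtain ⟨q, hq⟩ := pow_dvd_liftPoly_sq_sub n
    have h1 : aeval E (liftPoly n) * aeval E (liftPoly n) - aeval E (liftPoly n)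
        = aeval E q * (E - E ^ 2) ^ n := by
      have hq' : liftPoly n * liftPoly n - liftPoly n = q * ((X : ℤ[X]) - X ^ 2) ^ n := by
        rw [hq, mul_comm]
      have h2 := congrArg (aeval E) hq'
      rw [map_mul, map_sub, map_mul, map_pow, map_sub, map_pow, aeval_X] at h2
      exact h2
    have h3 := congrArg (fun f : Module.End ℤ J => f x) h1
    simp only [LinearMap.sub_apply, Module.End.mul_apply] at h3
    rw [pow_sub_sq_apply_eq_zero r E hidem n x hx, map_zero, sub_eq_zero] at h3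
    exact h3

end Fermat.Agent.S15P.Real.LiftTors29
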