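/-
S15 (seat helper29): the level-`n` Eisenstein projector on `J₀(p)` from the level-`1` projector,
with the count of L6 at level `r ^ n`.

`exists_level_proj`: for a Hecke polynomial `E` (over primes `q ∤ p`) idempotent on `J[r]` with
`#E J[r] = r ^ (2 d)` and every `n > 0` there is a Hecke polynomial `En` (a polynomial in `E`)
which is Galois-equivariant, agrees with `E` on `J[r]`, is idempotent on `J[r ^ n]` and satisfies
`#(c - 1) En J[r ^ n] ≤ r ^ (d n)` — the first, second and fourth clauses of `Hlev n` of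
`PSide92.card_kum_sigma_le` / `PSideInst71.card_W_le` (the third clause is L5 at level `n`).
-/
import Mathlib
import Fermat.Agent.S15P.Real.LiftTors29
import Fermat.Agent.S15P.Real.ConjFinal47
import Fermat.Agent.S15P.InterfacesDesc80
import Fermat.Agent.ESJ.Cong.Comm

set_option autoImplicit false

open ModularCurve AlgebraicCurve Fermat.Agent.ESJ

namespace Fermat.Agent.S15P.Real.LevelProj29

local notation "GQ" => (AlgebraicClosure ℚ ≃ₐ[ℚ] AlgebraicClosure ℚ)

/-- A Hecke polynomial over primes not dividing `N` commutes with the Galois action. -/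
theorem equivariant_of_mem (N : ℕ) [NeZero N] (S : Set Nat.Primes)
    (F : Module.End ℤ (JZero N)) (hF : F ∈ Algebra.adjoin ℤ (heckeOperatorBar N '' S)) :
    ∀ (γ : GQ) (x : JZero N), F (γ • x) = γ • F x :=
  Fermat.Agent.S15P.InterfacesDesc80.equivariant_of_mem_adjoin (heckeOperatorBar N '' S)
    (by rintro t ⟨q, _, rfl⟩ γ x; exact Fermat.Agent.ESJ.Cong.heckeGaloisCommute N q γ x) F hF

/-- **The level-`n` projector with its real-place count.** -/
theorem exists_level_proj (p : ℕ) [NeZero p] (r : ℕ) (hr : r.Prime)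
    (S : Set Nat.Primes) (hS : ∀ q ∈ S, ¬ (q : ℕ) ∣ p)
    (E : Module.End ℤ (JZero p)) (hE : E ∈ Algebra.adjoin ℤ (heckeOperatorBar p '' S))
    (hidem : ∀ x : JZero p, r • x = 0 → E (E x) = E x) (d : ℕ)
    (hd : Nat.card {g : JZero p // ∃ x : JZero p, r • x = 0 ∧ g = E x} = r ^ (2 * d))
    (n : ℕ) (hn : 0 < n) :
    ∃ En : Module.End ℤ (JZero p), En ∈ Algebra.adjoin ℤ (heckeOperatorBar p '' S) ∧
      (∀ (γ : GQ) (x : JZero p), En (γ • x) = γ • En x) ∧
      (∀ x : JZero p, r • x = 0 → En x = E x) ∧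
      (∀ x : JZero p, r ^ n • x = 0 → En (En x) = En x) ∧
      Nat.card {u : JZero p // ∃ x : JZero p, r ^ n • x = 0 ∧
        u = complexConjugation • En x - En x} ≤ r ^ (d * n) := by
  obtain ⟨F, hFadj, hF1, hFn⟩ := LiftTors29.exists_lift_torsion r n hn E hidem
  have hF : F ∈ Algebra.adjoin ℤ (heckeOperatorBar p '' S) :=
    Algebra.adjoin_le (Set.singleton_subset_iff.mpr hE) hFadj
  have hd' : Nat.card {g : JZero p // ∃ x : JZero p, r • x = 0 ∧ g = F x} = r ^ (2 * d) := by
    rw [← hd]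
    refine Nat.card_congr (Equiv.subtypeEquivRight fun g => ⟨?_, ?_⟩)
    · rintro ⟨x, hx, rfl⟩
      exact ⟨x, hx, hF1 x hx⟩
    · rintro ⟨x, hx, rfl⟩
      exact ⟨x, hx, (hF1 x hx).symm⟩
  exact ⟨F, hF, equivariant_of_mem p S F hF, hF1, hFn,
    ConjFinal47.card_conj_sub_le_final p r hr n hn S hS F hF hFn d hd'⟩

/-- The same with `En` as an additive map: clauses 1, 2, 4 of `Hlev n` verbatim, together with
idempotence on `J[r ^ n]` (for clause 3). -/
theorem exists_level_proj_addHom (p : ℕ) [NeZero p] (r : ℕ) (hr : r.Prime)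
    (S : Set Nat.Primes) (hS : ∀ q ∈ S, ¬ (q : ℕ) ∣ p)
    (E : Module.End ℤ (JZero p)) (hE : E ∈ Algebra.adjoin ℤ (heckeOperatorBar p '' S))
    (hidem : ∀ x : JZero p, r • x = 0 → E (E x) = E x) (d : ℕ)
    (hd : Nat.card {g : JZero p // ∃ x : JZero p, r • x = 0 ∧ g = E x} = r ^ (2 * d))
    (n : ℕ) (hn : 0 < n) :
    ∃ En : JZero p →+ JZero p,
      (∀ (γ : GQ) (x : JZero p), En (γ • x) = γ • En x) ∧
      (∀ x : JZero p, r • x = 0 → En x = E.toAddMonoidHom x) ∧
      (∀ x : JZero p, r ^ n • x = 0 → En (En x) = En x) ∧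
      Nat.card {u : JZero p // ∃ x, r ^ n • x = 0 ∧ u = complexConjugation • En x - En x}
        ≤ r ^ (d * n) := by
  obtain ⟨F, -, h1, h2, h3, h4⟩ := exists_level_proj p r hr S hS E hE hidem d hd n hn
  exact ⟨F.toAddMonoidHom, h1, h2, h3, h4⟩

end Fermat.Agent.S15P.Real.LevelProj29
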